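import Fermat.Agent.S36R.Val.Abs.Defs

/-!
# S36R/Val/Abs/Crit : integrality over `O[c]` = integrality over `K[c]` + over the Gauss ring
(pure Mathlib)
-/

set_option autoImplicit false

open Polynomial IntermediateField

noncomputable section

namespace Fermat.Agent.S36R.Val

variable {K F : Type*} [Field K] [Field F] [Algebra K F]

/-- `O[c]` as a subring of `F`. -/
def adjoinO (O : ValuationSubring K) (c : F) : Subring F :=
  Subring.closure ((algebraMap K F) '' (O : Set K) ∪ {c})

/-- the integral closure of `O[c]` in `F`, as a subring of `F`. -/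
def intO (O : ValuationSubring K) (c : F) : Subring F :=
  (integralClosure ↥(adjoinO O c) F).toSubring

theorem mem_intO {O : ValuationSubring K} {c x : F} :
    x ∈ intO O c ↔ IsIntegral ↥(adjoinO O c) x := Iff.rfl

/-- **Leaf CR1.** elements of `O[c]` are the values of the polynomials with coefficients in `O`. -/
theorem mem_adjoinO_iff {O : ValuationSubring K} {c x : F} :
    x ∈ adjoinO O c ↔ ∃ P : K[X], (∀ n, P.coeff n ∈ O) ∧ x = aeval c P := by
  constructor
  · intro hx
    induction hx using Subring.closure_induction with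
    | mem x hx =>
      rcases hx with ⟨a, ha, rfl⟩ | hx
      · refine ⟨C a, fun n => ?_, by rw [aeval_C]⟩
        rw [coeff_C]
        split_ifs
        · exact ha
        · exact O.zero_mem
      · rw [Set.mem_singleton_iff] at hx
        refine ⟨X, fun n => ?_, by rw [aeval_X, hx]⟩
        rw [coeff_X]
        split_ifs
        · exact O.one_mem
        · exact O.zero_mem
    | zero => exact ⟨0, fun n => by rw [coeff_zero]; exact O.zero_mem, by rw [map_zero]⟩
    | one =>
      refine ⟨1, fun n => ?_, by rw [map_one]⟩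
      rw [coeff_one]
      split_ifs
      · exact O.one_mem
      · exact O.zero_mem
    | add x y _ _ hx hy =>
      obtain ⟨P, hP, rfl⟩ := hx
      obtain ⟨Q, hQ, rfl⟩ := hy
      exact ⟨P + Q, fun n => by rw [coeff_add]; exact O.add_mem _ _ (hP n) (hQ n),
        by rw [map_add]⟩
    | neg x _ hx =>
      obtain ⟨P, hP, rfl⟩ := hx
      exact ⟨-P, fun n => by rw [coeff_neg]; exact O.neg_mem _ (hP n), by rw [map_neg]⟩
    | mul x y _ _ hx hy =>
      obtain ⟨P, hP, rfl⟩ := hx
      obtain ⟨Q, hQ, rfl⟩ := hy
      refine ⟨P * Q, fun n => ?_, by rw [map_mul]⟩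
      rw [coeff_mul]
      exact O.toSubring.sum_mem fun i _ => O.mul_mem _ _ (hP _) (hQ _)
  · rintro ⟨P, hP, rfl⟩
    rw [aeval_eq_sum_range]
    refine Subring.sum_mem _ fun i _ => ?_
    rw [Algebra.smul_def]
    have hc : c ∈ adjoinO O c := Subring.subset_closure (Or.inr rfl)
    have ha : algebraMap K F (P.coeff i) ∈ adjoinO O c :=
      Subring.subset_closure (Or.inl ⟨_, hP i, rfl⟩)
    exact mul_mem ha (pow_mem hc i)

/-- **Leaf CR2.** integrality over a subring `S` of `F` in terms of polynomials over `F`
(`Polynomial.toSubring`, `Polynomial.lifts`). -/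
theorem isIntegral_subring_iff {S : Subring F} {x : F} :
    IsIntegral ↥S x ↔ ∃ p : F[X], p.Monic ∧ (∀ n, p.coeff n ∈ S) ∧ p.eval x = 0 := by
  constructor
  · rintro ⟨p, hp, hx⟩
    refine ⟨p.map (algebraMap ↥S F), hp.map _, fun n => ?_, ?_⟩
    · rw [coeff_map]
      exact (p.coeff n).2
    · rw [eval_map]
      exact hx
  · rintro ⟨p, hp, hS, hx⟩
    have hc : (↑p.coeffs : Set F) ⊆ S := by
      intro a ha
      obtain ⟨n, -, rfl⟩ := Polynomial.mem_coeffs_iff.1 (Finset.mem_coe.1 ha)
      exact hS n
    refine ⟨p.toSubring S hc, (Polynomial.monic_toSubring p S hc).2 hp, ?_⟩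
    have h1 : (p.toSubring S hc).map (algebraMap ↥S F) = p := Polynomial.map_toSubring p S hc
    rw [← eval_map, h1]
    exact hx

/-- **Leaf CR3.** an integral element over `O[c]` lies in every valuation subring containing `O` and
`c` (valuation subrings are integrally closed). -/
theorem intO_le {O : ValuationSubring K} {c : F} {W : ValuationSubring F}
    (hO : ∀ a ∈ O, algebraMap K F a ∈ W) (hc : c ∈ W) : intO O c ≤ W.toSubring := by
  have hle : adjoinO O c ≤ W.toSubring := by
    unfold adjoinO
    rw [Subring.closure_le]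
    rintro x (⟨a, ha, rfl⟩ | hx)
    · exact hO a ha
    · rw [Set.mem_singleton_iff] at hx
      rw [hx]
      exact hc
  intro x hx
  rw [mem_intO, isIntegral_subring_iff] at hx
  obtain ⟨p, hp, hS, hx0⟩ := hx
  have h1 : IsIntegral ↥W.toSubring x :=
    isIntegral_subring_iff.2 ⟨p, hp, fun n => hle (hS n), hx0⟩
  have h2 : IsIntegral ↥W x := h1
  obtain ⟨y, hy⟩ := IsIntegrallyClosed.isIntegral_iff.1 h2
  rw [← hy]
  exact y.2

end Fermat.Agent.S36R.Val
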