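import Fermat.Agent.S36R.Val.Abs.Defs

/-! # S36R/Val/Abs : Gauss lemma for minimal polynomials (pure Mathlib) -/

set_option autoImplicit false

open Polynomial IntermediateField

noncomputable section

namespace Fermat.Agent.S36R.Val

variable {K F : Type*} [Field K] [Field F] [Algebra K F]

/-- **Leaf CR4 (Gauss lemma).** Let `E ⊆ F` be a subfield and `S ⊆ E` a subring which is integrally
closed in `E` and has fraction field `E`.  If `x : F` is a root of a monic polynomial with
coefficients in `S` then the minimal polynomial of `x` over `E` has coefficients in `S`.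
PROOF: `minpoly.isIntegrallyClosed_eq_field_fractions'` for `R := ↥(S.comap E.val)`-like subring of
`E` (`IsIntegrallyClosed` from `hcl` via `isIntegrallyClosed_iff`, `IsFractionRing` from `hfr` via
`IsFractionRing.of_field` / `IsLocalization` constructor). -/
theorem coeff_minpoly_mem (E : IntermediateField K F) (S : Subring F)
    (hSE : ∀ s ∈ S, s ∈ E)
    (hfr : ∀ r ∈ E, ∃ a ∈ S, ∃ b ∈ S, b ≠ 0 ∧ r = a / b)
    (hcl : ∀ r ∈ E, IsIntegral ↥S r → r ∈ S)
    {x : F} (hx : IsIntegral ↥S x) (n : ℕ) :
    algebraMap ↥E F ((minpoly ↥E x).coeff n) ∈ S := by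
  let f : ↥S →+* ↥E :=
    { toFun := fun s => ⟨s.1, hSE s.1 s.2⟩
      map_one' := rfl
      map_mul' := fun _ _ => rfl
      map_zero' := rfl
      map_add' := fun _ _ => rfl }
  let _ : Algebra ↥S ↥E := f.toAlgebra
  have : IsScalarTower ↥S ↥E F := IsScalarTower.of_algebraMap_eq (fun s => rfl)
  have hinj : Function.Injective (algebraMap ↥S ↥E) := by
    intro a b hab
    exact Subtype.ext (congrArg (fun z : ↥E => (z : F)) hab)
  have : FaithfulSMul ↥S ↥E := (faithfulSMul_iff_algebraMap_injective _ _).mpr hinj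
  have : IsFractionRing ↥S ↥E := by
    apply IsFractionRing.of_field
    intro z
    obtain ⟨a, ha, b, hb, _, hab⟩ := hfr z.1 z.2
    refine ⟨⟨a, ha⟩, ⟨b, hb⟩, ?_⟩
    apply Subtype.ext
    exact hab
  have : IsIntegrallyClosed ↥S := by
    rw [isIntegrallyClosed_iff ↥E]
    intro z hz
    have hz' : IsIntegral ↥S (algebraMap ↥E F z) := hz.algebraMap
    exact ⟨⟨z.1, hcl z.1 z.2 hz'⟩, rfl⟩
  rw [minpoly.isIntegrallyClosed_eq_field_fractions' ↥E hx, coeff_map]
  exact ((minpoly ↥S x).coeff n).2

end Fermat.Agent.S36R.Val
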