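import Fermat.Agent.S36R.Val.Abs.Defs

/-! # S36R/Val/Abs : `K[c]` is integrally closed in `K(c)` (pure Mathlib) -/

set_option autoImplicit false

open Polynomial IntermediateField

noncomputable section

namespace Fermat.Agent.S36R.Val

variable {K F : Type*} [Field K] [Field F] [Algebra K F]

open scoped IntermediateField.algebraAdjoinAdjoin in
/-- **Leaf CR5.** `K[c]` is integrally closed in `K(c)` (`c` transcendental: `K[c] ≃ K[X]` is a
PID/UFD, hence integrally closed; fraction field `K(c)`). Stated for the subring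
`(Algebra.adjoin K {c}).toSubring` of `F`. -/
theorem adjoin_closed {c : F} (hc : Transcendental K c) {r : F} (hr : r ∈ K⟮c⟯)
    (hint : IsIntegral ↥(Algebra.adjoin K {c}).toSubring r) : r ∈ Algebra.adjoin K {c} := by
  have hcl : IsIntegrallyClosed ↥(Algebra.adjoin K {c}) :=
    IsIntegrallyClosed.of_equiv (Polynomial.algEquivOfTranscendental K c hc).toRingEquiv
  have hint' : IsIntegral ↥(Algebra.adjoin K {c}) r := hint
  have hint'' : IsIntegral ↥(Algebra.adjoin K {c}) (⟨r, hr⟩ : K⟮c⟯) := by
    rw [← isIntegral_algebraMap_iff (algebraMap ↥K⟮c⟯ F).injective]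
    exact hint'
  obtain ⟨y, hy⟩ := IsIntegrallyClosed.algebraMap_eq_of_integral hint''
  have : (y : F) = r := congrArg (fun z : K⟮c⟯ => (z : F)) hy
  rw [← this]
  exact y.2

end Fermat.Agent.S36R.Val
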