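import Fermat.Agent.S36R.Val.Abs.Gauss2
import Fermat.Agent.S36R.Val.Abs.Crit1
import Fermat.Agent.S36R.Val.Abs.Crit4
import Fermat.Agent.S36R.Val.Abs.Crit5

/-! # S36R/Val/Abs/Crit : integrality over `O[c]` = integrality over `K[c]` + over the Gauss ring
(pure Mathlib) -/

set_option autoImplicit false

open Polynomial IntermediateField

noncomputable section

namespace Fermat.Agent.S36R.Val

variable {K F : Type*} [Field K] [Field F] [Algebra K F]

/-- valuation subrings are integrally closed. -/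
theorem Crit_mem_of_isIntegral (V : ValuationSubring F) (S : Subring F)
    (hS : ∀ a : S, (a : F) ∈ V) {b : F} (hb : IsIntegral ↥S b) : b ∈ V := by
  let _ : Algebra S V := ((algebraMap S F).codRestrict V.toSubring hS).toAlgebra
  let _ : IsScalarTower S V F := IsScalarTower.of_algebraMap_eq fun f => rfl
  have hx : IsIntegral V b := hb.tower_top
  obtain ⟨y, hy⟩ := IsIntegrallyClosed.isIntegral_iff.mp hx
  rw [← hy]
  exact y.2

/-- integral over a subring of `E` implies integral over `E`. -/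
theorem Crit_isIntegral_of_le {S : Subring F} (E : IntermediateField K F)
    (hS : ∀ a : S, (a : F) ∈ E) {b : F} (hb : IsIntegral ↥S b) : IsIntegral ↥E b := by
  let _ : Algebra S E := ((algebraMap S F).codRestrict E.toSubring hS).toAlgebra
  let _ : IsScalarTower S E F := IsScalarTower.of_algebraMap_eq fun f => rfl
  exact hb.tower_top

/-- monotonicity of integrality in the subring. -/
theorem Crit_isIntegral_mono {S T : Subring F} (hST : S ≤ T) {b : F} (hb : IsIntegral ↥S b) :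
    IsIntegral ↥T b := by
  obtain ⟨p, hp, hc, he⟩ := isIntegral_subring_iff.1 hb
  exact isIntegral_subring_iff.2 ⟨p, hp, fun n => hST (hc n), he⟩

theorem Crit_adjoinO_le (O : ValuationSubring K) (c : F) :
    adjoinO O c ≤ (Algebra.adjoin K {c}).toSubring := by
  refine Subring.closure_le.2 ?_
  rintro y (⟨a, -, rfl⟩ | hy)
  · exact (Algebra.adjoin K {c}).algebraMap_mem a
  · rw [Set.mem_singleton_iff] at hy
    rw [hy]
    exact Algebra.self_mem_adjoin_singleton K c

/-- **CRIT.**  `x` integral over `K[c]` and over the Gauss ring `W ∩ K(c)` ⟹ `x` integral over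
`O[c]`.
PROOF: by `coeff_minpoly_mem` (for `S = K[c]`, using `adjoin_closed`, and for
`S = W ∩ K(c)`, a valuation ring of `K(c)`) the coefficients of `minpoly K(c) x` lie in
`K[c] ∩ W = O[c]` (`IsGaussExt.coeff_mem`, `mem_adjoinO_iff`); conclude with
`isIntegral_subring_iff` applied to `(minpoly K(c) x).map (algebraMap _ F)`. -/
theorem crit {O : ValuationSubring K} {W : ValuationSubring F} {c : F} (h : IsGaussExt O W c)
    {x : F} (h1 : IsIntegral ↥(Algebra.adjoin K {c}).toSubring x)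
    (h2 : ∃ p : F[X], p.Monic ∧ (∀ n, p.coeff n ∈ W ∧ p.coeff n ∈ K⟮c⟯) ∧ p.eval x = 0) :
    x ∈ intO O c := by
  have hSE₁ : ∀ s ∈ (Algebra.adjoin K {c}).toSubring, s ∈ K⟮c⟯ := fun s hs =>
    IntermediateField.algebra_adjoin_le_adjoin K {c} hs
  -- the coefficients are in `K[c]`
  have hA : ∀ n, algebraMap ↥K⟮c⟯ F ((minpoly ↥K⟮c⟯ x).coeff n) ∈
      (Algebra.adjoin K {c}).toSubring := by
    intro n
    refine coeff_minpoly_mem K⟮c⟯ (Algebra.adjoin K {c}).toSubring hSE₁ ?_ ?_ h1 n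
    · intro r hr
      obtain ⟨P, Q, hPQ⟩ := (IntermediateField.mem_adjoin_simple_iff K r).1 hr
      have hmem : ∀ R : K[X], aeval c R ∈ (Algebra.adjoin K {c}).toSubring := by
        intro R
        show aeval c R ∈ Algebra.adjoin K {c}
        rw [Algebra.adjoin_singleton_eq_range_aeval]
        exact ⟨R, rfl⟩
      by_cases hQ : aeval c Q = 0
      · refine ⟨0, zero_mem _, 1, one_mem _, one_ne_zero, ?_⟩
        rw [hPQ, hQ, div_zero, zero_div]
      · exact ⟨_, hmem P, _, hmem Q, hQ, hPQ⟩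
    · intro r hr hint
      exact adjoin_closed h.transcendental hr hint
  -- the coefficients are in `W`
  have hB : ∀ n, algebraMap ↥K⟮c⟯ F ((minpoly ↥K⟮c⟯ x).coeff n) ∈
      W.toSubring ⊓ K⟮c⟯.toSubring := by
    intro n
    refine coeff_minpoly_mem K⟮c⟯ (W.toSubring ⊓ K⟮c⟯.toSubring) (fun s hs => hs.2) ?_ ?_ ?_ n
    · intro r hr
      rcases W.mem_or_inv_mem r with hW | hW
      · exact ⟨r, ⟨hW, hr⟩, 1, one_mem _, one_ne_zero, (div_one r).symm⟩
      · by_cases hr0 : r = 0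
        · exact ⟨0, zero_mem _, 1, one_mem _, one_ne_zero, by rw [hr0, zero_div]⟩
        · exact ⟨1, one_mem _, r⁻¹, ⟨hW, K⟮c⟯.inv_mem hr⟩, inv_ne_zero hr0,
            by rw [one_div, inv_inv]⟩
    · intro r hr hint
      exact ⟨Crit_mem_of_isIntegral W (W.toSubring ⊓ K⟮c⟯.toSubring)
        (fun a => (Subring.mem_inf.1 a.2).1) hint, hr⟩
    · obtain ⟨p, hp, hc, he⟩ := h2
      exact isIntegral_subring_iff.2 ⟨p, hp, fun n => ⟨(hc n).1, (hc n).2⟩, he⟩
  have hxE : IsIntegral ↥K⟮c⟯ x := Crit_isIntegral_of_le K⟮c⟯ (fun a => hSE₁ _ a.2) h1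
  rw [mem_intO, isIntegral_subring_iff]
  refine ⟨(minpoly ↥K⟮c⟯ x).map (algebraMap ↥K⟮c⟯ F), (minpoly.monic hxE).map _, fun n => ?_, ?_⟩
  · rw [coeff_map]
    have h3 : algebraMap ↥K⟮c⟯ F ((minpoly ↥K⟮c⟯ x).coeff n) ∈ Algebra.adjoin K {c} := hA n
    rw [Algebra.adjoin_singleton_eq_range_aeval] at h3
    obtain ⟨P, hP⟩ := h3
    have hP' : aeval c P = algebraMap ↥K⟮c⟯ F ((minpoly ↥K⟮c⟯ x).coeff n) := hP
    rw [mem_adjoinO_iff]
    refine ⟨P, fun m => h.coeff_mem ?_ m, hP'.symm⟩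
    rw [hP']
    exact (hB n).1
  · rw [eval_map_algebraMap, minpoly.aeval]

/-- **CRIT'.** the form used by the consumers. -/
theorem crit' {O : ValuationSubring K} {W : ValuationSubring F} {c : F} (h : IsGaussExt O W c)
    {ϖ : K} (hϖ : ϖ ≠ 0) {x : F} (m : ℕ) (h1 : algebraMap K F ϖ ^ m * x ∈ intO O c)
    (h2 : ∃ p : F[X], p.Monic ∧ (∀ n, p.coeff n ∈ W ∧ p.coeff n ∈ K⟮c⟯) ∧ p.eval x = 0) :
    x ∈ intO O c := by
  refine crit h ?_ h2
  have h3 : IsIntegral ↥(Algebra.adjoin K {c}).toSubring (algebraMap K F ϖ ^ m * x) :=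
    Crit_isIntegral_mono (Crit_adjoinO_le O c) (mem_intO.1 h1)
  have hu : algebraMap K F (ϖ ^ m)⁻¹ ∈ (Algebra.adjoin K {c}).toSubring :=
    (Algebra.adjoin K {c}).algebraMap_mem _
  have h4 : IsIntegral ↥(Algebra.adjoin K {c}).toSubring (algebraMap K F (ϖ ^ m)⁻¹) :=
    isIntegral_algebraMap (x := (⟨_, hu⟩ : ↥(Algebra.adjoin K {c}).toSubring))
  have h5 := h4.mul h3
  have h6 : algebraMap K F (ϖ ^ m)⁻¹ * (algebraMap K F ϖ ^ m * x) = x := by
    rw [← mul_assoc, ← map_pow, ← map_mul, inv_mul_cancel₀ (pow_ne_zero m hϖ), map_one, one_mul]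
  rwa [h6] at h5

end Fermat.Agent.S36R.Val
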