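import Fermat.Agent.S36R.Val.Abs.Gauss

/-! # S36R/Val/Abs : `1 / c` is residually transcendental (pure Mathlib) -/

set_option autoImplicit false

open Polynomial IntermediateField

noncomputable section

namespace Fermat.Agent.S36R.Val

variable {K F : Type*} [Field K] [Field F] [Algebra K F]

variable {O : ValuationSubring K} {W : ValuationSubring F} {c : F}

/-- **Leaf G10.** `1 / c` is also residually transcendental if `c` is a unit of `W`.
(`Polynomial.reverse`, `Polynomial.eval₂_reverse_mul_pow` : `P(c⁻¹) c^deg = P.reverse(c)`;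
`coeff_reverse` / `reverse` permutes the coefficients.) -/
theorem IsGaussExt.inv (h : IsGaussExt O W c) (hc : c⁻¹ ∈ W) : IsGaussExt O W c⁻¹ := by
  have hc0 : c ≠ 0 := by
    intro h0
    have h1 := h.transcendental
    rw [h0] at h1
    exact h1 (isAlgebraic_zero)
  refine ⟨h.comap, hc, fun P hP hPc n => ?_⟩
  have hrev : aeval c P.reverse = aeval c⁻¹ P * c ^ P.natDegree := by
    let _ : Invertible c⁻¹ := invertibleOfNonzero (inv_ne_zero hc0)
    have h1 := eval₂_reverse_mul_pow (algebraMap K F) c⁻¹ P
    rw [invOf_eq_inv, inv_inv] at h1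
    rw [aeval_def, aeval_def, ← h1, mul_assoc, ← mul_pow, inv_mul_cancel₀ hc0, one_pow, mul_one]
  have hmem : aeval c P.reverse ∈ W.nonunits := by
    rw [hrev, ValuationSubring.mem_nonunits_iff, map_mul]
    have h1 : W.valuation (aeval c⁻¹ P) < 1 := W.mem_nonunits_iff.mp hPc
    have h2 : W.valuation (c ^ P.natDegree) ≤ 1 :=
      (ValuationSubring.valuation_le_one_iff _ _).mpr (pow_mem h.mem _)
    exact mul_lt_one_of_lt_of_le h1 h2
  have h3 := h.trans P.reverse (fun m => by rw [coeff_reverse]; exact hP _) hmem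
    (revAt P.natDegree n)
  rwa [coeff_reverse, revAt_invol] at h3

end Fermat.Agent.S36R.Val
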