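import Fermat.Agent.S36R.Val.Abs.Main
import Fermat.Agent.S36R.Val.Abs.Crit
import Fermat.Agent.S36R.Val.Abs.Gauss3
import Fermat.Agent.S36R.Bridge.Chart

/-!
# S36R/Val/Abs/Sat : the chart `RR O c` and the vertical valuations (pure Mathlib)

`O` a discrete valuation subring of `K` with uniformiser `ϖ`, `F / K(c)` finite, `W i` the
extensions to `F` of the Gauss valuation ring of `K(c)`.

* `VertFam O ϖ c W e` : the package of facts about the `W i` (in a form which only mentions `F`),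
  symmetric in `c ↔ c⁻¹` (`VertFam.inv`);
* consequences for `R = Bridge.RR O c` (the integral closure of `O[c]` in `F`):
  `VertFam.sat` (`= Inj.Chart.sat`), `VertFam.le_W`, `VertFam.loc` (`= Lvl.TripleOK.loc`),
  `VertFam.sep`, `VertFam.vert` (`= Inj.Vert`), `VertFam.dvd_coeff` (`hG` of `AA.cond_of_chart`);
* `vertFam_of_ef` : `VertFam` from the numerical criterion `[F : K(c)] ≤ ∑ e i * f i` (`abs_main`).
-/

set_option autoImplicit false
set_option maxHeartbeats 400000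

open Polynomial IntermediateField Module

noncomputable section

namespace Fermat.Agent.S36R.Val

variable {K F : Type*} [Field K] [Field F] [Algebra K F]

/-! ### `Algebra.adjoin O {c}` versus `adjoinO O c` -/

theorem mem_adjoin_iff_adjoinO {O : ValuationSubring K} {c x : F} :
    x ∈ Algebra.adjoin ↥O {c} ↔ x ∈ adjoinO O c := by
  rw [mem_adjoinO_iff, Algebra.adjoin_singleton_eq_range_aeval]
  constructor
  · rintro ⟨p, rfl⟩
    refine ⟨p.map (algebraMap ↥O K), fun n => ?_, ?_⟩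
    · rw [coeff_map]; exact (p.coeff n).2
    · rw [aeval_map_algebraMap]; rfl
  · rintro ⟨P, hP, rfl⟩
    have hl : P ∈ Polynomial.lifts (algebraMap ↥O K) := by
      rw [Polynomial.lifts_iff_coeff_lifts]
      exact fun n => ⟨⟨_, hP n⟩, rfl⟩
    obtain ⟨p, rfl⟩ := hl
    exact ⟨p, (aeval_map_algebraMap (A := K) c p).symm⟩

theorem RR_eq_intO (O : ValuationSubring K) (c : F) : Bridge.RR ↥O c = intO O c := by
  ext x
  rw [mem_intO, isIntegral_subring_iff]
  constructor
  · intro hx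
    obtain ⟨P, hP, hc, h0⟩ := Bridge.exists_monic_of_mem_RR hx
    exact ⟨P, hP, fun n => mem_adjoin_iff_adjoinO.1 (hc n), h0⟩
  · rintro ⟨P, hP, hc, h0⟩
    exact Bridge.mem_RR_of_monic hP (fun n => mem_adjoin_iff_adjoinO.2 (hc n)) h0

/-! ### The package -/

/-- The package of facts about the vertical valuation rings `W i` (all the extensions to `F` of the Gauss
valuation ring of `K(c)`). -/
structure VertFam (O : ValuationSubring K) (ϖ : K) (c : F) {ι : Type*}
    (W : ι → ValuationSubring F) (e : ι → ℕ) : Prop where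
  unif : IsUnif O ϖ
  gauss : ∀ i, IsGaussExt O (W i) c
  integral : ∀ x : F, (∀ i, x ∈ W i) → ∃ p : F[X], p.Monic ∧
    (∀ n, (∀ i, p.coeff n ∈ W i) ∧ p.coeff n ∈ K⟮c⟯) ∧ p.eval x = 0
  approx : ∀ x : ι → F, (∀ i, x i ∈ W i) → ∃ y : F, ∀ i, y ∈ W i ∧ y - x i ∈ (W i).nonunits
  arch : ∀ i, ∀ x : F, ∃ m : ℕ, algebraMap K F ϖ ^ m * x ∈ W i
  incomparable : ∀ i j, W i ≤ W j → i = j
  valgrp : ∀ i, ∀ z : F, z ≠ 0 → ∃ x : ℤ, (W i).valuation (z ^ e i / algebraMap K F ϖ ^ x) = 1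
  pow_div : ∀ i, ∀ x : F, (W i).valuation x < 1 →
    (W i).valuation x ^ e i ≤ (W i).valuation (algebraMap K F ϖ)

theorem IsGaussExt.valuation_self {O : ValuationSubring K} {W : ValuationSubring F} {c : F}
    (h : IsGaussExt O W c) : W.valuation c = 1 := by
  have hX : IsPrim O (X : K[X]) := by
    refine ⟨fun n => ?_, 1, ?_⟩
    · rw [coeff_X]; split_ifs
      · exact O.one_mem
      · exact O.zero_mem
    · rw [coeff_X_one, ValuationSubring.mem_nonunits_iff, map_one]; exact lt_irrefl _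
  simpa using h.Gauss_valuation_aeval hX

theorem IsGaussExt.self_inv_mem {O : ValuationSubring K} {W : ValuationSubring F} {c : F}
    (h : IsGaussExt O W c) : c⁻¹ ∈ W := by
  rw [← ValuationSubring.valuation_le_one_iff, map_inv₀, h.valuation_self, inv_one]

theorem sat_adjoin_inv_eq (c : F) : K⟮c⁻¹⟯ = K⟮c⟯ := by
  apply le_antisymm
  · rw [adjoin_simple_le_iff]; exact inv_mem (mem_adjoin_simple_self K c)
  · rw [adjoin_simple_le_iff]
    have := inv_mem (mem_adjoin_simple_self K c⁻¹)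
    rwa [inv_inv] at this

variable {O : ValuationSubring K} {ϖ : K} {c : F} {ι : Type*} {W : ι → ValuationSubring F}
  {e : ι → ℕ}

/-- the package is symmetric in `c ↔ c⁻¹`. -/
theorem VertFam.inv (h : VertFam O ϖ c W e) : VertFam O ϖ c⁻¹ W e :=
  { h with
    gauss := fun i => (h.gauss i).inv (h.gauss i).self_inv_mem
    integral := by rw [sat_adjoin_inv_eq]; exact h.integral }

theorem VertFam.algebraMap_mem (h : VertFam O ϖ c W e) (a : O) (i : ι) :
    algebraMap ↥O F a ∈ W i := by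
  have : (a : K) ∈ (W i).comap (algebraMap K F) := by rw [(h.gauss i).comap]; exact a.2
  exact this

theorem VertFam.le_W (h : VertFam O ϖ c W e) (i : ι) {z : F} (hz : z ∈ Bridge.RR ↥O c) :
    z ∈ W i :=
  Bridge.RR_le_valuationSubring (W i) (fun a => h.algebraMap_mem a i) (h.gauss i).mem hz

theorem VertFam.valuation_pi_lt (h : VertFam O ϖ c W e) (i : ι) :
    (W i).valuation (algebraMap K F ϖ) < 1 := by
  by_contra hcon
  have h1 : (algebraMap K F ϖ)⁻¹ ∈ W i := by
    rw [← ValuationSubring.valuation_le_one_iff, map_inv₀]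
    exact inv_le_one_of_one_le₀ (not_lt.1 hcon)
  have h2 : ϖ⁻¹ ∈ (W i).comap (algebraMap K F) := by
    rw [ValuationSubring.mem_comap, map_inv₀]; exact h1
  rw [(h.gauss i).comap] at h2
  have h3 := (ValuationSubring.mem_nonunits_iff O).1 h.unif.mem
  have h4 := (O.valuation_le_one_iff _).2 h2
  have h5 : O.valuation (ϖ * ϖ⁻¹) < 1 := by
    rw [map_mul]; exact mul_lt_one_of_lt_of_le h3 h4
  rw [mul_inv_cancel₀ h.unif.ne_zero, map_one] at h5
  exact lt_irrefl _ h5

/-- **`Inj.Chart.sat`**. -/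
theorem VertFam.sat [Nonempty ι] (h : VertFam O ϖ c W e) (z : F)
    (hz : algebraMap K F ϖ * z ∈ Bridge.RR ↥O c) (hW : ∀ i, z ∈ W i) : z ∈ Bridge.RR ↥O c := by
  obtain ⟨p, hp, hc, h0⟩ := h.integral z hW
  obtain ⟨i⟩ := ‹Nonempty ι›
  rw [RR_eq_intO] at hz ⊢
  exact crit' (h.gauss i) h.unif.ne_zero 1 (by rwa [pow_one]) ⟨p, hp, fun n => ⟨(hc n).1 i, (hc n).2⟩, h0⟩

/-- clearing the denominators of one element of the Gauss ring. -/
theorem VertFam.exists_unit_mul_coeff [Nonempty ι] (h : VertFam O ϖ c W e) {r : F}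
    (hr : r ∈ K⟮c⟯) (hrW : ∀ i, r ∈ W i) :
    ∃ s ∈ Algebra.adjoin ↥O {c}, (∀ i, (W i).valuation s = 1) ∧ s * r ∈ Algebra.adjoin ↥O {c} := by
  obtain ⟨i₀⟩ := ‹Nonempty ι›
  obtain ⟨P, Q, hP, hQ, rfl⟩ := (h.gauss i₀).exists_frac hr (hrW i₀)
  refine ⟨aeval c Q, mem_adjoin_iff_adjoinO.2 (mem_adjoinO_iff.2 ⟨Q, hQ.1, rfl⟩),
    fun i => (h.gauss i).Gauss_valuation_aeval hQ, ?_⟩
  rw [mul_div_cancel₀ _ ((h.gauss i₀).gauss2_aeval_ne_zero hQ)]
  exact mem_adjoin_iff_adjoinO.2 (mem_adjoinO_iff.2 ⟨P, hP, rfl⟩)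

/-- every element of `⋂ W i` becomes integral over `O[c]` after multiplication by an element of `O[c]`
which is a unit of all the `W i`. -/
theorem VertFam.exists_unit_mul_mem [Nonempty ι] (h : VertFam O ϖ c W e) {y : F}
    (hy : ∀ i, y ∈ W i) :
    ∃ s ∈ Algebra.adjoin ↥O {c}, (∀ i, (W i).valuation s = 1) ∧ s * y ∈ Bridge.RR ↥O c := by
  obtain ⟨p, hp, hc, h0⟩ := h.integral y hy
  choose s hs hs1 hs2 using fun n => h.exists_unit_mul_coeff (hc n).2 (hc n).1
  set S : F := ∏ n ∈ Finset.range p.natDegree, s n with hS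
  have hSmem : S ∈ Algebra.adjoin ↥O {c} := Subalgebra.prod_mem _ fun n _ => hs n
  have hSco : ∀ n < p.natDegree, S * p.coeff n ∈ Algebra.adjoin ↥O {c} := by
    intro n hn
    rw [hS, ← Finset.mul_prod_erase _ _ (Finset.mem_range.2 hn), mul_right_comm]
    exact Subalgebra.mul_mem _ (hs2 n) (Subalgebra.prod_mem _ fun m _ => hs m)
  refine ⟨S, hSmem, fun i => ?_, ?_⟩
  · rw [hS, map_prod]; exact Finset.prod_eq_one fun n _ => hs1 n i
  · refine Bridge.mem_RR_of_monic (P := p.scaleRoots S) ((monic_scaleRoots_iff S).2 hp) ?_ ?_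
    · intro n
      rw [coeff_scaleRoots]
      rcases lt_trichotomy n p.natDegree with hn | hn | hn
      · obtain ⟨k, hk⟩ : ∃ k, p.natDegree - n = k + 1 := ⟨p.natDegree - n - 1, by omega⟩
        rw [hk, pow_succ, ← mul_assoc, mul_right_comm, mul_comm (p.coeff n)]
        exact Subalgebra.mul_mem _ (hSco n hn) (Subalgebra.pow_mem _ hSmem k)
      · rw [hn, Nat.sub_self, pow_zero, mul_one, hp.coeff_natDegree]
        exact Subalgebra.one_mem _
      · rw [coeff_eq_zero_of_natDegree_lt hn, zero_mul]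
        exact Subalgebra.zero_mem _
    · have := scaleRoots_eval₂_mul (p := p) (RingHom.id F) y S
      simp only [RingHom.id_apply, eval₂_id] at this
      rw [this, h0, mul_zero]

/-- an element which is `≡ 1` at `W i` and `≡ 0` at the other `W j`. -/
theorem VertFam.exists_idem (h : VertFam O ϖ c W e) (i : ι) :
    ∃ t : F, (∀ j, t ∈ W j) ∧ (W i).valuation t = 1 ∧ ∀ j, j ≠ i → (W j).valuation t < 1 := by
  classical
  obtain ⟨t, ht⟩ := h.approx (fun j => if j = i then 1 else 0) (fun j => by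
    split_ifs
    · exact (W j).one_mem
    · exact (W j).zero_mem)
  refine ⟨t, fun j => (ht j).1, ?_, fun j hj => ?_⟩
  · have h1 := (ht i).2
    rw [if_pos rfl, ValuationSubring.mem_nonunits_iff] at h1
    have h2 : (W i).valuation (t - 1 + 1) = 1 := by
      rw [add_comm, Valuation.map_add_eq_of_lt_left _ (by rwa [map_one]), map_one]
    rwa [sub_add_cancel] at h2
  · have h1 := (ht j).2
    rwa [if_neg hj, sub_zero, ValuationSubring.mem_nonunits_iff] at h1

/-- a power of a non unit kills any pole. -/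
theorem VertFam.exists_pow_mul_mem (h : VertFam O ϖ c W e) (j : ι) {t : F}
    (ht : (W j).valuation t < 1) (z : F) : ∃ N : ℕ, ∀ n, N ≤ n → t ^ n * z ∈ W j := by
  obtain ⟨m, hm⟩ := h.arch j z
  refine ⟨e j * m, fun n hn => ?_⟩
  obtain ⟨k, rfl⟩ := Nat.exists_eq_add_of_le hn
  rw [← ValuationSubring.valuation_le_one_iff] at hm ⊢
  rw [map_mul, map_pow] at hm
  rw [map_mul, map_pow, pow_add, pow_mul, mul_right_comm]
  have h1 : ((W j).valuation t ^ e j) ^ m * (W j).valuation z ≤ 1 :=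
    le_trans (mul_le_mul' (pow_le_pow_left₀ zero_le (h.pow_div j t ht) m) le_rfl) hm
  exact mul_le_one' h1 (pow_le_one₀ zero_le ht.le)

/-- **`Lvl.TripleOK.loc`**: `W i` is the local ring of `RR O c` at its centre. -/
theorem VertFam.loc [Finite ι] (h : VertFam O ϖ c W e) (i : ι) (z : F) (hz : z ∈ W i) :
    ∃ r s : Bridge.RR ↥O c, (W i).valuation (s : F) = 1 ∧ z * s = r := by
  classical
  have : Nonempty ι := ⟨i⟩
  cases nonempty_fintype ι
  obtain ⟨t, ht, hti, htj⟩ := h.exists_idem i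
  have hN : ∀ j, ∃ N : ℕ, ∀ n, N ≤ n → t ^ n * z ∈ W j := by
    intro j
    by_cases hj : j = i
    · subst hj
      exact ⟨0, fun n _ => (W j).mul_mem _ _ (pow_mem (ht j) n) hz⟩
    · exact h.exists_pow_mul_mem j (htj j hj) z
  choose N hN using hN
  set n := Finset.univ.sup N with hn
  have h1 : ∀ j, t ^ n * z ∈ W j := fun j => hN j n (Finset.le_sup (Finset.mem_univ j))
  have h2 : ∀ j, t ^ n ∈ W j := fun j => pow_mem (ht j) n
  obtain ⟨s₁, hs₁, hu₁, hm₁⟩ := h.exists_unit_mul_mem h1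
  obtain ⟨s₂, hs₂, hu₂, hm₂⟩ := h.exists_unit_mul_mem h2
  refine ⟨⟨s₂ * (s₁ * (t ^ n * z)), mul_mem (Bridge.adjoin_le_RR hs₂) hm₁⟩,
    ⟨s₁ * (s₂ * t ^ n), mul_mem (Bridge.adjoin_le_RR hs₁) hm₂⟩, ?_, ?_⟩
  · simp only [map_mul, map_pow, hu₁ i, hu₂ i, hti, one_pow, mul_one]
  · simp only; ring

/-- separating elements. -/
theorem VertFam.sep (h : VertFam O ϖ c W e) (i j : ι) (hij : i ≠ j) :
    ∃ x : Bridge.RR ↥O c, (W j).valuation (x : F) < 1 ∧ ¬ (W i).valuation (x : F) < 1 := by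
  have : Nonempty ι := ⟨i⟩
  obtain ⟨t, ht, hti, htj⟩ := h.exists_idem i
  obtain ⟨s, hs, hu, hm⟩ := h.exists_unit_mul_mem ht
  refine ⟨⟨s * t, hm⟩, ?_, ?_⟩
  · simp only [map_mul, hu j, one_mul]; exact htj j hij.symm
  · simp only [map_mul, hu i, one_mul, hti]; exact lt_irrefl _

/-- **`Inj.Vert`**. -/
theorem VertFam.vert (h : VertFam O ϖ c W e) {π : O} (hπ : (π : K) = ϖ) {E : ℕ}
    (hE : ∀ i, e i ≤ E) : Inj.Vert π W E where
  pi_lt i := by
    have : algebraMap ↥O F π = algebraMap K F ϖ := by rw [← hπ]; rfl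
    rw [this]; exact h.valuation_pi_lt i
  pi_ne := by
    have : algebraMap ↥O F π = algebraMap K F ϖ := by rw [← hπ]; rfl
    rw [this]; exact (_root_.map_ne_zero _).2 h.unif.ne_zero
  disc i z hz := by
    have : algebraMap ↥O F π = algebraMap K F ϖ := by rw [← hπ]; rfl
    rw [this]
    exact le_trans (pow_le_pow_of_le_one zero_le hz.le (hE i)) (h.pow_div i z hz)

/-- non units of `O` are divisible by the uniformiser. -/
theorem IsUnif.dvd_of_mem_nonunits {O : ValuationSubring K} {ϖ : K} (h : IsUnif O ϖ) {π : O}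
    (hπ : (π : K) = ϖ) {a : O} (ha : (a : K) ∈ O.nonunits) : π ∣ a := by
  obtain ⟨hDVR, hirr⟩ := isDVR_of_isUnif h
  have hπ' : π = ⟨ϖ, O.nonunits_subset h.mem⟩ := Subtype.ext hπ
  rw [← hπ'] at hirr
  have h1 : a ∈ IsLocalRing.maximalIdeal O := ValuationSubring.coe_mem_nonunits_iff.1 ha
  rw [hirr.maximalIdeal_eq, Ideal.mem_span_singleton] at h1
  exact h1

/-- hypothesis `hG` of `AA.cond_of_chart`: `W i` restricts to the Gauss valuation of `O[c]`. -/
theorem VertFam.dvd_coeff (h : VertFam O ϖ c W e) {π : O} (hπ : (π : K) = ϖ) (i : ι) (p : (↥O)[X])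
    (hp : (W i).valuation (aeval c p) < 1) (n : ℕ) : π ∣ p.coeff n := by
  apply h.unif.dvd_of_mem_nonunits hπ
  have h1 := (h.gauss i).trans (p.map (algebraMap ↥O K))
    (fun n => by rw [coeff_map]; exact (p.coeff n).2)
    (by rw [aeval_map_algebraMap, ValuationSubring.mem_nonunits_iff]; exact hp) n
  rwa [coeff_map] at h1

/-! ### The numerical criterion -/

/-- residual independence over the residue field of the Gauss ring, tested on polynomials in `c`. -/
def IsIndepPoly (O : ValuationSubring K) (W : ValuationSubring F) (c : F) {κ : Type*} [Fintype κ]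
    (y : κ → F) : Prop :=
  (∀ l, y l ∈ W) ∧ ∀ P : κ → K[X], (∀ l n, (P l).coeff n ∈ O) →
    ∑ l, aeval c (P l) * y l ∈ W.nonunits → ∀ l n, (P l).coeff n ∈ O.nonunits

theorem sat_mem_nonunits_comap {L L' : Type*} [Field L] [Field L'] (φ : L →+* L')
    (A : ValuationSubring L') (x : L) : x ∈ (A.comap φ).nonunits ↔ φ x ∈ A.nonunits := by
  rw [gauss2_mem_nonunits_iff_inv, gauss2_mem_nonunits_iff_inv, ValuationSubring.mem_comap,
    map_inv₀, map_eq_zero]

theorem IsGaussExt.aeval_mem_nonunits {W : ValuationSubring F} (h : IsGaussExt O W c) {P : K[X]}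
    (hP : ∀ n, P.coeff n ∈ O.nonunits) : aeval c P ∈ W.nonunits := by
  rw [ValuationSubring.mem_nonunits_iff, aeval_eq_sum_range]
  refine Valuation.map_sum_lt _ one_ne_zero fun n _ => ?_
  rw [Algebra.smul_def, map_mul, map_pow]
  have h1 : algebraMap K F (P.coeff n) ∈ W.nonunits := by
    rw [← sat_mem_nonunits_comap, h.comap]; exact hP n
  rw [ValuationSubring.mem_nonunits_iff] at h1
  exact mul_lt_one_of_lt_of_le h1
    (pow_le_one₀ zero_le ((ValuationSubring.valuation_le_one_iff _ _).2 h.mem))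

theorem IsGaussExt.isIndep_of_poly {W : ValuationSubring F} (h : IsGaussExt O W c) {κ : Type*}
    [Fintype κ] {y : κ → F} (hy : IsIndepPoly O W c y) :
    IsIndep (W.comap (algebraMap K⟮c⟯ F)) W y := by
  classical
  refine ⟨hy.1, fun g hg hsum l => ?_⟩
  have hfr : ∀ l, ∃ P Q : K[X], (∀ n, P.coeff n ∈ O) ∧ IsPrim O Q ∧
      algebraMap K⟮c⟯ F (g l) = aeval c P / aeval c Q :=
    fun l => h.exists_frac (g l).2 (hg l)
  choose P Q hP hQ hPQ using hfr
  set S : F := ∏ l, aeval c (Q l) with hS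
  have hSv : W.valuation S = 1 := by
    rw [hS, map_prod]; exact Finset.prod_eq_one fun l _ => h.Gauss_valuation_aeval (hQ l)
  have hmem : ∀ l, S * algebraMap K⟮c⟯ F (g l) ∈ adjoinO O c := by
    intro l
    rw [hS, ← Finset.mul_prod_erase _ _ (Finset.mem_univ l), hPQ l, mul_right_comm,
      mul_div_cancel₀ _ (h.gauss2_aeval_ne_zero (hQ l))]
    exact mul_mem (mem_adjoinO_iff.2 ⟨P l, hP l, rfl⟩)
      (prod_mem fun m _ => mem_adjoinO_iff.2 ⟨Q m, (hQ m).1, rfl⟩)
  choose R hR hRe using fun l => mem_adjoinO_iff.1 (hmem l)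
  have h1 : ∑ l, aeval c (R l) * y l ∈ W.nonunits := by
    have : ∑ l, aeval c (R l) * y l = S * ∑ l, algebraMap K⟮c⟯ F (g l) * y l := by
      rw [Finset.mul_sum]
      exact Finset.sum_congr rfl fun l _ => by rw [← hRe l, mul_assoc]
    rw [this, ValuationSubring.mem_nonunits_iff, map_mul, hSv, one_mul]
    exact (ValuationSubring.mem_nonunits_iff _).1 hsum
  have h2 := h.aeval_mem_nonunits (hy.2 R hR h1 l)
  rw [← hRe l, ValuationSubring.mem_nonunits_iff, map_mul, hSv, one_mul] at h2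
  rw [sat_mem_nonunits_comap, ValuationSubring.mem_nonunits_iff]
  exact h2

/-- **the numerical criterion** (`abs_main` over the Gauss ring of `K(c)`). -/
theorem absConcl_of_ef [FiniteDimensional K⟮c⟯ F] [Algebra.IsSeparable K⟮c⟯ F] [Fintype ι]
    (hO : IsUnif O ϖ) (hW : Function.Injective W) (hG : ∀ i, IsGaussExt O (W i) c) (f : ι → ℕ)
    (hb : ∀ i, ∃ b ∈ (W i).nonunits, b ≠ 0 ∧ algebraMap K F ϖ / b ^ e i ∈ W i)
    (hy : ∀ i, ∃ (κ : Type) (_ : Fintype κ) (y : κ → F),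
      Fintype.card κ = f i ∧ IsIndepPoly O (W i) c y)
    (hsum : finrank K⟮c⟯ F ≤ ∑ i, e i * f i) (i₀ : ι) :
    AbsConcl ((W i₀).comap (algebraMap K⟮c⟯ F)) (algebraMap K K⟮c⟯ ϖ) W e f := by
  refine abs_main _ _ ((hG i₀).isUnif hO) W hW e f (fun i => ⟨(hG i).comap_eq (hG i₀), hb i, ?_⟩) hsum
  obtain ⟨κ, _, y, hc, hy⟩ := hy i
  refine ⟨κ, _, y, hc, ?_⟩
  rw [← (hG i).comap_eq (hG i₀)]
  exact (hG i).isIndep_of_poly hy

theorem vertFam_of_absConcl {f : ι → ℕ} (hO : IsUnif O ϖ) (hG : ∀ i, IsGaussExt O (W i) c)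
    {G : ValuationSubring K⟮c⟯} (hGW : ∀ i, (W i).comap (algebraMap K⟮c⟯ F) = G)
    (h : AbsConcl G (algebraMap K K⟮c⟯ ϖ) W e f) : VertFam O ϖ c W e where
  unif := hO
  gauss := hG
  integral x hx := by
    obtain ⟨p, hp, hc, h0⟩ := h.integral x hx
    refine ⟨p.map (algebraMap K⟮c⟯ F), hp.map _, fun n => ⟨fun i => ?_, ?_⟩, ?_⟩
    · rw [coeff_map]
      have : p.coeff n ∈ (W i).comap (algebraMap K⟮c⟯ F) := by rw [hGW i]; exact hc n
      exact this
    · rw [coeff_map]; exact (p.coeff n).2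
    · rw [eval_map_algebraMap]; exact h0
  approx := h.approx
  arch := h.arch
  incomparable := h.incomparable
  valgrp := h.valgrp
  pow_div := h.pow_div

/-- **`VertFam` from the numerical criterion.** -/
theorem vertFam_of_ef [FiniteDimensional K⟮c⟯ F] [Algebra.IsSeparable K⟮c⟯ F] [Fintype ι]
    [Nonempty ι]
    (hO : IsUnif O ϖ) (hW : Function.Injective W) (hG : ∀ i, IsGaussExt O (W i) c) (f : ι → ℕ)
    (hb : ∀ i, ∃ b ∈ (W i).nonunits, b ≠ 0 ∧ algebraMap K F ϖ / b ^ e i ∈ W i)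
    (hy : ∀ i, ∃ (κ : Type) (_ : Fintype κ) (y : κ → F),
      Fintype.card κ = f i ∧ IsIndepPoly O (W i) c y)
    (hsum : finrank K⟮c⟯ F ≤ ∑ i, e i * f i) : VertFam O ϖ c W e := by
  obtain ⟨i₀⟩ := ‹Nonempty ι›
  exact vertFam_of_absConcl hO hG (fun i => (hG i).comap_eq (hG i₀))
    (absConcl_of_ef hO hW hG f hb hy hsum i₀)

end Fermat.Agent.S36R.Val
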