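import Fermat.Agent.S36R.Val.Abs.Sat
import Fermat.Agent.S36R.Bridge.Abs
import Fermat.Agent.S36R.Contracts

/-!
# S36R/Val/Abs/Contract : `VertFam` ⟹ the (VAL) fields of `Contracts.lean`

For `h : VertFam O (q : K) c W e` (`W : Fin 3 → _` in the application):
* `VertFam.chart`, `VertFam.chart_inv` : `Inj.Chart (q : O) W c^{±1} (Bridge.RR O c^{±1})`;
* `VertFam.good_vert`, `VertFam.good_incomp`, `VertFam.good_eW`, `VertFam.good_eW_one`;
* `VertFam.loc` (in `Sat.lean`) is `Lvl.TripleOK.loc`.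
-/

set_option autoImplicit false
set_option maxHeartbeats 400000

open Polynomial IntermediateField Module

noncomputable section

namespace Fermat.Agent.S36R.Val

variable {K F : Type*} [Field K] [Field F] [Algebra K F]
variable {O : ValuationSubring K} {ϖ : K} {c : F} {ι : Type*} {W : ι → ValuationSubring F}
  {e : ι → ℕ}

/-- **`Inj.Chart`** for the integral closure of `O[c]`. -/
theorem VertFam.chart [CharZero F] [FiniteDimensional K⟮c⟯ F] [Nonempty ι]
    (h : VertFam O ϖ c W e) {π : O} (hπ : (π : K) = ϖ) : Inj.Chart π W c (Bridge.RR ↥O c) := by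
  obtain ⟨i₀⟩ := ‹Nonempty ι›
  have : Nonempty ι := ⟨i₀⟩
  refine Bridge.chart_RR K π W c (h.gauss i₀).transcendental (fun a i => h.algebraMap_mem a i)
    (fun i => (h.gauss i).mem) (fun z hz hW => h.sat z ?_ hW)
  have : algebraMap ↥O F π = algebraMap K F ϖ := by rw [← hπ]; rfl
  rwa [this] at hz

/-- **`Inj.Chart`** for the integral closure of `O[c⁻¹]`. -/
theorem VertFam.chart_inv [CharZero F] [FiniteDimensional K⟮c⟯ F] [Nonempty ι]
    (h : VertFam O ϖ c W e) {π : O} (hπ : (π : K) = ϖ) :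
    Inj.Chart π W c⁻¹ (Bridge.RR ↥O c⁻¹) := by
  have : FiniteDimensional K⟮c⁻¹⟯ F := by rw [sat_adjoin_inv_eq]; infer_instance
  exact h.inv.chart hπ

section Nat

variable {q : ℕ}

theorem VertFam.good_vert (h : VertFam O (q : K) c W e) (hE : ∀ i, e i ≤ q - 1) :
    Inj.Vert (q : O) W (q - 1) :=
  h.vert (by push_cast; rfl) hE

theorem VertFam.good_incomp (h : VertFam O ϖ c W e) (i j : ι) (hij : i ≠ j) : ¬ W i ≤ W j :=
  fun hle => hij (h.incomparable i j hle)

theorem VertFam.good_eW (h : VertFam O (q : K) c W e) (i : ι) (z : F) (hz : z ≠ 0) :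
    ∃ x : ℤ, IsU (W i) (z ^ e i / (q : F) ^ x) := by
  obtain ⟨x, hx⟩ := h.valgrp i z hz
  rw [map_natCast] at hx
  exact ⟨x, hx⟩

theorem VertFam.good_eW_one (h : VertFam O (q : K) c W e) (i : ι) (hi : e i = 1) (z : F)
    (hz : z ≠ 0) : ∃ x : ℤ, IsU (W i) (z / (q : F) ^ x) := by
  obtain ⟨x, hx⟩ := h.good_eW i z hz
  rw [hi, pow_one] at hx
  exact ⟨x, hx⟩

end Nat

end Fermat.Agent.S36R.Val
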