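import Fermat.Agent.S36R.Val.Abs.Defs

/-! # S36R/Val/Abs, leaf D0 : a valuation subring with a uniformiser is a DVR (pure Mathlib) -/

set_option autoImplicit false

noncomputable section

namespace Fermat.Agent.S36R.Val

variable {E : Type*} [Field E]

theorem D0_exists_pow {G : ValuationSubring E} {ϖ : E} (h : IsUnif G ϖ) {x : E} (hx : x ≠ 0)
    (hxG : x ∈ G) : ∃ k : ℕ, G.valuation x = G.valuation ϖ ^ k := by
  have hv0 : G.valuation ϖ ≠ 0 := (Valuation.ne_zero_iff _).2 h.ne_zero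
  have hv1 : G.valuation ϖ < 1 := (ValuationSubring.mem_nonunits_iff G).1 h.mem
  obtain ⟨n, hn1, hn2⟩ := h.exists_zpow x hx
  rw [← G.valuation_le_one_iff] at hn1 hn2 hxG
  have hne : x * ϖ ^ n ≠ 0 := mul_ne_zero hx (zpow_ne_zero _ h.ne_zero)
  have hvne : G.valuation (x * ϖ ^ n) ≠ 0 := (Valuation.ne_zero_iff _).2 hne
  have hone : G.valuation (x * ϖ ^ n) = 1 := by
    refine le_antisymm hn1 ?_
    rw [map_inv₀, inv_le_one₀ (zero_lt_iff.2 hvne)] at hn2
    exact hn2
  rw [map_mul, map_zpow₀] at hone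
  have hxv : G.valuation x = G.valuation ϖ ^ (-n) := by
    rw [zpow_neg]
    exact eq_inv_of_mul_eq_one_left hone
  have hn0 : 0 ≤ -n := by
    by_contra hneg
    rw [not_le] at hneg
    rw [hxv] at hxG
    have h2 : (1 : G.ValueGroup) < G.valuation ϖ ^ (-n) := by
      obtain ⟨k, hk⟩ : ∃ k : ℕ, -n = -((k : ℤ) + 1) := ⟨(n - 1).toNat, by omega⟩
      rw [hk, zpow_neg, one_lt_inv₀ (zero_lt_iff.2 (zpow_ne_zero _ hv0))]
      have : G.valuation ϖ ^ ((k : ℤ) + 1) = G.valuation ϖ ^ (k + 1) := by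
        rw [← zpow_natCast]; norm_cast
      rw [this]
      exact pow_lt_one₀ zero_le hv1 (Nat.succ_ne_zero k)
    exact absurd hxG (not_le.2 h2)
  obtain ⟨k, hk⟩ := Int.eq_ofNat_of_zero_le hn0
  refine ⟨k, ?_⟩
  rw [hxv, hk, zpow_natCast]

/-- **Leaf D0.**
PROOF: every nonzero `x : G` is `unit * ϖ ^ n`, `n : ℕ` (from `exists_zpow`: `x * ϖ ^ m = u` a unit of
`G`; `m ≤ 0` because `x ∈ G` and `ϖ` is a nonunit); `ϖ` is irreducible;
`IsDiscreteValuationRing.ofHasUnitMulPowIrreducibleFactorization` (or copy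
`Fermat/Agent/S36R/K0/DVRL.lean : exists_associated_pow, isDiscreteValuationRing_OI`). -/
theorem isDVR_of_isUnif {G : ValuationSubring E} {ϖ : E} (h : IsUnif G ϖ) :
    IsDiscreteValuationRing ↥G ∧ Irreducible (⟨ϖ, G.nonunits_subset h.mem⟩ : ↥G) := by
  have hv0 : G.valuation ϖ ≠ 0 := (Valuation.ne_zero_iff _).2 h.ne_zero
  have hv1 : G.valuation ϖ < 1 := (ValuationSubring.mem_nonunits_iff G).1 h.mem
  have hle : ∀ a : G, ¬ IsUnit a → G.valuation (a : E) ≤ G.valuation ϖ := by
    intro a ha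
    by_cases ha0 : (a : E) = 0
    · rw [ha0, map_zero]; exact zero_le
    obtain ⟨k, hk⟩ := D0_exists_pow h ha0 a.2
    rw [hk]
    rcases Nat.eq_zero_or_pos k with rfl | hk0
    · rw [pow_zero] at hk
      exact absurd ((G.valuation_eq_one_iff a).2 hk) ha
    · exact pow_le_of_le_one zero_le hv1.le hk0.ne'
  have hirr : Irreducible (⟨ϖ, G.nonunits_subset h.mem⟩ : ↥G) := by
    rw [irreducible_iff]
    constructor
    · intro hu
      have := (G.valuation_eq_one_iff _).1 hu
      exact absurd this hv1.ne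
    · intro a b hab
      by_contra hcon
      rw [not_or] at hcon
      have h1 : G.valuation ϖ = G.valuation (a : E) * G.valuation (b : E) := by
        rw [← map_mul]
        exact congrArg (fun z : G => G.valuation (z : E)) hab
      have hb : G.valuation (b : E) < 1 := by
        refine lt_of_le_of_ne (G.valuation_le_one b) fun hb1 => ?_
        exact hcon.2 ((G.valuation_eq_one_iff b).2 hb1)
      have h2 : G.valuation (a : E) * G.valuation (b : E) < G.valuation ϖ :=
        calc G.valuation (a : E) * G.valuation (b : E)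
            ≤ G.valuation ϖ * G.valuation (b : E) := by
              gcongr
              exact hle a hcon.1
          _ < G.valuation ϖ * 1 := by
              exact mul_lt_mul_of_pos_left hb (zero_lt_iff.2 hv0)
          _ = G.valuation ϖ := mul_one _
      rw [← h1] at h2
      exact lt_irrefl _ h2
  refine ⟨IsDiscreteValuationRing.ofHasUnitMulPowIrreducibleFactorization
    ⟨_, hirr, fun {x} hx => ?_⟩, hirr⟩
  have hx0 : (x : E) ≠ 0 := fun h0 => hx (Subtype.ext h0)
  obtain ⟨k, hk⟩ := D0_exists_pow h hx0 x.2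
  refine ⟨k, ?_⟩
  have hu : (x : E) / ϖ ^ k ∈ G := by
    rw [← G.valuation_le_one_iff, map_div₀, map_pow, hk, div_self (pow_ne_zero _ hv0)]
  have hunit : IsUnit (⟨(x : E) / ϖ ^ k, hu⟩ : G) := by
    rw [G.valuation_eq_one_iff]
    change G.valuation ((x : E) / ϖ ^ k) = 1
    rw [map_div₀, map_pow, hk, div_self (pow_ne_zero _ hv0)]
  obtain ⟨u, hu'⟩ := hunit
  refine ⟨u, ?_⟩
  rw [hu']
  apply Subtype.ext
  change ϖ ^ k * ((x : E) / ϖ ^ k) = (x : E)
  have := h.ne_zero
  field_simp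

end Fermat.Agent.S36R.Val
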