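import Fermat.Agent.S36R.Val.Abs.Defs

/-! # S36R/Val/Abs, leaf D1 : valuation subrings over `R` are the primes of the integral closure -/

set_option autoImplicit false
set_option linter.unusedSectionVars false

open IsDedekindDomain WithZero Module

noncomputable section

namespace Fermat.Agent.S36R.Val

variable (R : Type*) {L B : Type*} [CommRing R] [Field L] [Algebra R L]
  [CommRing B] [IsDedekindDomain B] [Algebra R B] [Algebra B L] [IsScalarTower R B L]
  [IsIntegralClosure B R L] [IsFractionRing B L]

omit [IsDedekindDomain B] [IsFractionRing B L] in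
theorem D1_algebraMap_mem (W : ValuationSubring L) (hW : ∀ r : R, algebraMap R L r ∈ W) (b : B) :
    algebraMap B L b ∈ W := by
  let : Algebra R W := ((algebraMap R L).codRestrict W.toSubring hW).toAlgebra
  let : IsScalarTower R W L := IsScalarTower.of_algebraMap_eq fun f => rfl
  have hb : IsIntegral R (algebraMap B L b) := (IsIntegralClosure.isIntegral R L b).algebraMap
  have hx : IsIntegral W (algebraMap B L b) := hb.tower_top
  obtain ⟨y, hy⟩ := IsIntegrallyClosed.isIntegral_iff.mp hx
  rw [← hy]
  exact y.2

omit [Algebra R L] [Algebra R B] [IsScalarTower R B L] [IsIntegralClosure B R L] in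
theorem D1_inv_mem (W : ValuationSubring L) (hv : ∀ b : B, algebraMap B L b ∈ W) (s : B)
    (hs : s ∉ (IsLocalRing.maximalIdeal W).comap ((algebraMap B L).codRestrict W.toSubring hv)) :
    (algebraMap B L s)⁻¹ ∈ W := by
  rw [Ideal.mem_comap, IsLocalRing.mem_maximalIdeal, mem_nonunits_iff, not_not] at hs
  obtain ⟨u, hu⟩ := hs
  have hu' : ((u : W) : L) = algebraMap B L s := by
    rw [hu]; rfl
  have hinv : (((u⁻¹ : Wˣ) : W) : L) = (algebraMap B L s)⁻¹ := by
    have h : ((u : W) : L) * (((u⁻¹ : Wˣ) : W) : L) = 1 := congrArg Subtype.val u.mul_inv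
    rw [← hu']
    exact eq_inv_of_mul_eq_one_right h
  rw [← hinv]
  exact ((u⁻¹ : Wˣ) : W).2

/-- **Leaf D1.** A valuation subring `W ≠ ⊤` of `L` containing `R` comes from a prime of `B`.
PROOF: copy `Fermat/Agent/S24/PlaceDedekind.lean : centre, ofHeightOneSpectrum_centre` and
`S24/SumFormula.lean : integralClosure_le_place`.  `B ⊆ W` (valuation rings are integrally closed);
`P := comap (maximalIdeal W)`, prime, `≠ ⊥` (otherwise every nonzero `b : B` is a unit of `W`, so
`L = Frac B ⊆ W`); `V_P ≤ W` by `HeightOneSpectrum.exists_primeCompl_mul_eq_of_integer`; equality by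
`ValuationSubring.eq_of_le_of_ne_top` and
`HeightOneSpectrum.valuationSubringAtPrime_eq_valuationSubring`. -/
theorem exists_heightOne (W : ValuationSubring L) (hW : ∀ r : R, algebraMap R L r ∈ W)
    (hne : W ≠ ⊤) : ∃ P : HeightOneSpectrum B, (P.valuation L).valuationSubring = W := by
  have hv : ∀ b : B, algebraMap B L b ∈ W := D1_algebraMap_mem R W hW
  refine ⟨⟨(IsLocalRing.maximalIdeal W).comap ((algebraMap B L).codRestrict W.toSubring hv),
    Ideal.comap_isPrime _ _, ?_⟩, ?_⟩
  · intro hbot
    apply hne
    refine SetLike.ext fun x => ⟨fun _ => ValuationSubring.mem_top x, fun _ => ?_⟩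
    obtain ⟨a, s, hs, rfl⟩ := IsFractionRing.div_surjective (A := B) x
    have hs0 : s ≠ 0 := nonZeroDivisors.ne_zero hs
    have hsnot : s ∉ (IsLocalRing.maximalIdeal W).comap
        ((algebraMap B L).codRestrict W.toSubring hv) := by
      rw [hbot]; simpa using hs0
    rw [div_eq_mul_inv]
    exact mul_mem (hv a) (D1_inv_mem W hv s hsnot)
  · rw [← HeightOneSpectrum.valuationSubringAtPrime_eq_valuationSubring]
    refine ValuationSubring.eq_of_le_of_ne_top _ ?_ hne
    rw [HeightOneSpectrum.valuationSubringAtPrime_eq_valuationSubring]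
    intro x hx
    rw [Valuation.mem_valuationSubring_iff] at hx
    obtain ⟨n, d, hnd⟩ := HeightOneSpectrum.exists_primeCompl_mul_eq_of_integer _ x hx
    have hd : (d : B) ∉ (IsLocalRing.maximalIdeal W).comap
        ((algebraMap B L).codRestrict W.toSubring hv) := d.2
    have hd0 : algebraMap B L d ≠ 0 := by
      intro h0
      apply hd
      have : (d : B) = 0 := by
        apply IsFractionRing.injective B L
        rw [h0, map_zero]
      rw [this]
      exact Ideal.zero_mem _
    have hx' : x = algebraMap B L n * (algebraMap B L d)⁻¹ := by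
      rw [← hnd, mul_assoc, mul_inv_cancel₀ hd0, mul_one]
    rw [hx']
    exact mul_mem (hv n) (D1_inv_mem W hv d hd)

omit [Algebra R L] [Algebra R B] [IsScalarTower R B L] [IsIntegralClosure B R L] in
/-- **Leaf D1'.** No inclusions between the valuation rings of distinct primes.
PROOF: `ValuationSubring.eq_of_le_of_ne_top` (+ `valuationSubringAtPrime_eq_valuationSubring`) gives
equality of the valuation subrings (`≠ ⊤`: a nonzero element of `Q` is not a unit); then
`b ∈ P ↔ v_P b < 1 ↔ b` is a nonunit of the valuation subring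
(`HeightOneSpectrum.valuation_lt_one_iff_mem`), so `P = Q` (`HeightOneSpectrum.ext`). -/
theorem eq_of_valuationSubring_le (P Q : HeightOneSpectrum B)
    (h : (P.valuation L).valuationSubring ≤ (Q.valuation L).valuationSubring) : P = Q := by
  have hne : (Q.valuation L).valuationSubring ≠ ⊤ := by
    intro htop
    obtain ⟨π, hπ⟩ := Q.valuation_exists_uniformizer L
    have hπ0 : π ≠ 0 := by
      rintro rfl
      rw [map_zero] at hπ
      exact WithZero.exp_ne_zero hπ.symm
    have hmem : π⁻¹ ∈ (Q.valuation L).valuationSubring := by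
      rw [htop]; exact ValuationSubring.mem_top _
    rw [Valuation.mem_valuationSubring_iff, map_inv₀, hπ, ← WithZero.exp_neg, neg_neg] at hmem
    have : (1 : ℤᵐ⁰) < exp (1 : ℤ) := by
      rw [← WithZero.exp_zero, WithZero.exp_lt_exp]; norm_num
    exact absurd hmem (not_le.mpr this)
  have heq : (P.valuation L).valuationSubring = (Q.valuation L).valuationSubring := by
    rw [← HeightOneSpectrum.valuationSubringAtPrime_eq_valuationSubring] at h ⊢
    exact ValuationSubring.eq_of_le_of_ne_top _ h hne
  have key : ∀ (P' : HeightOneSpectrum B) (b : B), b ∈ P'.asIdeal ↔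
      (b = 0 ∨ (algebraMap B L b)⁻¹ ∉ (P'.valuation L).valuationSubring) := by
    intro P' b
    rw [← P'.valuation_lt_one_iff_mem (K := L), Valuation.mem_valuationSubring_iff, map_inv₀]
    rcases eq_or_ne b 0 with rfl | hb
    · simp
    have hb0 : algebraMap B L b ≠ 0 := by
      simpa using (IsFractionRing.injective B L).ne hb
    have h0 : P'.valuation L (algebraMap B L b) ≠ 0 := (Valuation.ne_zero_iff _).mpr hb0
    simp only [hb, false_or, not_le]
    rw [one_lt_inv₀ (zero_lt_iff.mpr h0)]
  apply HeightOneSpectrum.ext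
  ext b
  rw [key P, key Q, heq]

end Fermat.Agent.S36R.Val
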