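import Fermat.Agent.S36R.Val.Abs.Defs

/-! # S36R/Val/Abs, leaf D2 : primes of `B` lie over `𝔪_R`; `v_P(ϖ) = exp (-e(P))` -/

set_option autoImplicit false
set_option linter.deprecated false
set_option linter.unusedSectionVars false

open IsDedekindDomain WithZero Module

noncomputable section

namespace Fermat.Agent.S36R.Val

variable (R : Type*) {K L B : Type*} [CommRing R] [IsDomain R] [IsDiscreteValuationRing R]
  [Field K] [Field L] [Algebra R K] [IsFractionRing R K] [Algebra K L] [Algebra R L]
  [IsScalarTower R K L]
  [CommRing B] [IsDedekindDomain B] [Algebra R B] [Algebra B L] [IsScalarTower R B L]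
  [IsIntegralClosure B R L] [IsFractionRing B L] [Module.Finite R B]

omit [Field K] [Algebra R K] [IsFractionRing R K] [Algebra K L] [IsScalarTower R K L] in
/-- **Leaf D2a.** Every nonzero prime of `B` lies over the maximal ideal of `R`.
PROOF: `P ∩ R` is a prime of the DVR `R`; it is `≠ ⊥` because `B` is integral over `R`
(`Ideal.comap_ne_bot_of_integral_mem` / `Ideal.eq_bot_of_comap_eq_bot`), so it is the maximal
ideal (`IsLocalRing.eq_maximalIdeal`, `Ring.DimensionLEOne`). -/
theorem liesOver_maximalIdeal (P : HeightOneSpectrum B) :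
    P.asIdeal.LiesOver (IsLocalRing.maximalIdeal R) := by
  have hint : Algebra.IsIntegral R B := inferInstance
  have hprime : (P.asIdeal.comap (algebraMap R B)).IsPrime := Ideal.comap_isPrime _ _
  have hne : P.asIdeal.comap (algebraMap R B) ≠ ⊥ := by
    intro h
    exact P.ne_bot (Ideal.eq_bot_of_comap_eq_bot h)
  have hmax : (P.asIdeal.comap (algebraMap R B)).IsMaximal :=
    Ring.DimensionLEOne.maximalOfPrime hne hprime
  constructor
  exact (IsLocalRing.eq_maximalIdeal hmax).symm

/-- **Leaf D2b.** `v_P(ϖ) = exp (- e(P))`.
PROOF: `HeightOneSpectrum.valuation_liesOver` (`Mathlib/NumberTheory/RamificationInertia/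
Valuation.lean`) for `v = ⟨maximalIdeal R, _, _⟩`, `w = P`, `liesOver_maximalIdeal`, and
`v.valuation K ϖ = exp (-1)` (`HeightOneSpectrum.valuation_of_algebraMap`,
`intValuation_singleton` / `intValuation_eq_exp_neg_multiplicity`,
`Irreducible.maximalIdeal_eq`).  (`K` is only used as an auxiliary fraction field of `R`.) -/
theorem valuation_irreducible (K : Type*) [Field K] [Algebra R K] [IsFractionRing R K]
    [Algebra K L] [IsScalarTower R K L] (P : HeightOneSpectrum B) {ϖ : R} (hϖ : Irreducible ϖ) :
    P.valuation L (algebraMap R L ϖ) =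
      exp (-((IsLocalRing.maximalIdeal R).ramificationIdx' P.asIdeal : ℤ)) := by
  have hnf : IsLocalRing.maximalIdeal R ≠ ⊥ := IsDiscreteValuationRing.not_a_field R
  let v : HeightOneSpectrum R := ⟨IsLocalRing.maximalIdeal R, inferInstance, hnf⟩
  have : P.asIdeal.LiesOver v.asIdeal := liesOver_maximalIdeal R P
  have hinj : Function.Injective (algebraMap R B) := by
    have h1 : Function.Injective (algebraMap R L) := by
      rw [IsScalarTower.algebraMap_eq R K L]
      exact (algebraMap K L).injective.comp (IsFractionRing.injective R K)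
    rw [IsScalarTower.algebraMap_eq R B L] at h1
    exact Function.Injective.of_comp h1
  have : Module.IsTorsionFree R B := by
    have : FaithfulSMul R B := (faithfulSMul_iff_algebraMap_injective R B).mpr hinj
    infer_instance
  have h := HeightOneSpectrum.valuation_liesOver (K := K) L v P (algebraMap R K ϖ)
  rw [← IsScalarTower.algebraMap_apply R K L] at h
  rw [← h, HeightOneSpectrum.valuation_of_algebraMap,
    HeightOneSpectrum.intValuation_singleton v hϖ.ne_zero hϖ.maximalIdeal_eq, ← WithZero.exp_nsmul]
  simp only [nsmul_eq_mul, mul_neg, mul_one]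
  rfl

end Fermat.Agent.S36R.Val
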