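import Fermat.Agent.S36R.Val.Abs.Defs

/-! # S36R/Val/Abs, leaves D3a, D5 : approximation by elements of a Dedekind domain -/

set_option autoImplicit false
set_option linter.unusedSectionVars false

open IsDedekindDomain WithZero Module

noncomputable section

namespace Fermat.Agent.S36R.Val

variable {L B : Type*} [Field L] [CommRing B] [IsDedekindDomain B] [Algebra B L]
  [IsFractionRing B L]

/-- **Leaf D3a.** Every `P`-integral element of `L` is congruent to an element of `B`.
PROOF: `x * d = n` with `n : B`, `d ∉ P` (`HeightOneSpectrum.exists_primeCompl_mul_eq_of_integer`);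
`P` is maximal, so `d * d' - 1 ∈ P` for some `d'` (`Ideal.Quotient` is a field /
`Ideal.IsMaximal.exists_inv`); take `b = n * d'`: `x - n d' = x (1 - d d')`. -/
theorem exists_sub_lt_one (P : HeightOneSpectrum B) (x : L) (hx : P.valuation L x ≤ 1) :
    ∃ b : B, P.valuation L (x - algebraMap B L b) < 1 := by
  obtain ⟨n, d, hnd⟩ := HeightOneSpectrum.exists_primeCompl_mul_eq_of_integer P x hx
  have hd : (d : B) ∉ P.asIdeal := d.2
  have hmax : P.asIdeal.IsMaximal := P.isMaximal
  obtain ⟨d', i, hi, hdi⟩ := hmax.exists_inv hd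
  have hd' : d' * d - 1 ∈ P.asIdeal := by
    have : d' * d - 1 = - i := by rw [← hdi]; ring
    rw [this]
    exact neg_mem hi
  refine ⟨n * d', ?_⟩
  have h1 : x - algebraMap B L (n * d') = - (x * algebraMap B L (d' * d - 1)) := by
    rw [map_mul, ← hnd, map_sub, map_mul, map_one]
    ring
  rw [h1, Valuation.map_neg, map_mul]
  have h2 : P.valuation L (algebraMap B L (d' * d - 1)) < 1 :=
    (P.valuation_lt_one_iff_mem _).mpr hd'
  calc P.valuation L x * P.valuation L (algebraMap B L (d' * d - 1))
      ≤ 1 * P.valuation L (algebraMap B L (d' * d - 1)) := mul_le_mul_left hx _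
    _ < 1 := by rwa [one_mul]

/-- **Leaf D5 (weak approximation).**
PROOF: replace `x i` by `b i : B` (`exists_sub_lt_one`); Chinese remainder theorem in `B` for the
pairwise coprime maximal ideals `(P i).asIdeal` (`Ideal.exists_forall_sub_mem_ideal` /
`IsDedekindDomain.exists_forall_sub_mem_ideal` with exponents `1`);
`HeightOneSpectrum.valuation_lt_one_iff_mem`; ultrametric inequality
(`Valuation.map_add_lt` / `map_sub_lt`). -/
theorem exists_weak_approx {ι : Type*} [Fintype ι] (P : ι → HeightOneSpectrum B)
    (hP : Function.Injective P) (x : ι → L) (hx : ∀ i, (P i).valuation L (x i) ≤ 1) :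
    ∃ b : B, ∀ i, (P i).valuation L (algebraMap B L b - x i) < 1 := by
  choose b hb using fun i => exists_sub_lt_one (P i) (x i) (hx i)
  obtain ⟨y, hy⟩ := IsDedekindDomain.exists_forall_sub_mem_ideal (s := Finset.univ)
    (fun i => (P i).asIdeal) (fun _ => 1) (fun i _ => (P i).prime)
    (fun i _ j _ hij h => hij (hP (HeightOneSpectrum.ext h))) (fun i => b i)
  refine ⟨y, fun i => ?_⟩
  have h1 : algebraMap B L y - x i = algebraMap B L (y - b i) - (x i - algebraMap B L (b i)) := by
    rw [map_sub]; ring
  rw [h1]
  refine Valuation.map_sub_lt _ ?_ (hb i)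
  rw [HeightOneSpectrum.valuation_lt_one_iff_mem]
  simpa using hy i (Finset.mem_univ i)

end Fermat.Agent.S36R.Val
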