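import Fermat.Agent.S36R.Val.Abs.D2
import Fermat.Agent.S36R.Val.Abs.D3a

/-! # S36R/Val/Abs, leaf D3 : residue degree -/

set_option autoImplicit false
set_option linter.deprecated false
set_option linter.unusedSectionVars false

open IsDedekindDomain WithZero Module

noncomputable section

namespace Fermat.Agent.S36R.Val

variable (R : Type*) {L B : Type*} [CommRing R] [IsDomain R] [IsDiscreteValuationRing R]
  [Field L] [Algebra R L]
  [CommRing B] [IsDedekindDomain B] [Algebra R B] [Algebra B L] [IsScalarTower R B L]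
  [IsIntegralClosure B R L] [IsFractionRing B L] [Module.Finite R B]

theorem D3_val_algebraMap_le (P : HeightOneSpectrum B) (c : R) :
    P.valuation L (algebraMap R L c) ≤ 1 := by
  rw [IsScalarTower.algebraMap_apply R B L]
  exact P.valuation_le_one _

/-- replacing `y l` by `b l` does not change the residue of a linear combination. -/
theorem D3_sum_sub_lt (P : HeightOneSpectrum B) {κ : Type*} [Fintype κ] (y : κ → L) (b : κ → B)
    (hb : ∀ l, P.valuation L (y l - algebraMap B L (b l)) < 1) (c : κ → R) :
    P.valuation L (∑ l, algebraMap R L (c l) * y l -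
      algebraMap B L (∑ l, algebraMap R B (c l) * b l)) < 1 := by
  have h : ∑ l, algebraMap R L (c l) * y l - algebraMap B L (∑ l, algebraMap R B (c l) * b l) =
      ∑ l, algebraMap R L (c l) * (y l - algebraMap B L (b l)) := by
    rw [map_sum, ← Finset.sum_sub_distrib]
    refine Finset.sum_congr rfl fun l _ => ?_
    rw [map_mul, ← IsScalarTower.algebraMap_apply R B L]
    ring
  rw [h]
  refine Valuation.map_sum_lt _ one_ne_zero fun l _ => ?_
  rw [map_mul]
  exact lt_of_le_of_lt (mul_le_of_le_one_left' (D3_val_algebraMap_le R P (c l))) (hb l)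

theorem D3_aux (P : HeightOneSpectrum B) [P.asIdeal.LiesOver (IsLocalRing.maximalIdeal R)]
    {κ : Type*} [Fintype κ] (y : κ → L) (hy : IsIndepAt R P y) :
    ∃ b : κ → B, (∀ l, P.valuation L (y l - algebraMap B L (b l)) < 1) ∧
      LinearIndependent (R ⧸ IsLocalRing.maximalIdeal R)
        (fun l => Ideal.Quotient.mk P.asIdeal (b l)) := by
  choose b hb using fun l => exists_sub_lt_one P (y l) (hy.1 l)
  refine ⟨b, hb, ?_⟩
  rw [Fintype.linearIndependent_iff]
  intro g hg l
  choose c hc using fun l => Ideal.Quotient.mk_surjective (g l)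
  have h1 : ∑ l, g l • Ideal.Quotient.mk P.asIdeal (b l) =
      Ideal.Quotient.mk P.asIdeal (∑ l, algebraMap R B (c l) * b l) := by
    rw [map_sum]
    refine Finset.sum_congr rfl fun l _ => ?_
    rw [← hc l, Algebra.smul_def, Ideal.Quotient.algebraMap_mk_of_liesOver, map_mul]
  rw [h1, Ideal.Quotient.eq_zero_iff_mem, ← P.valuation_lt_one_iff_mem (K := L)] at hg
  have h2 := D3_sum_sub_lt R P y b hb c
  have h3 : P.valuation L (∑ l, algebraMap R L (c l) * y l) < 1 := by
    have := Valuation.map_add_lt _ h2 hg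
    rwa [sub_add_cancel] at this
  rw [← hc l, Ideal.Quotient.eq_zero_iff_mem]
  exact hy.2 c h3 l

/-- **Leaf D3b.** `#κ ≤ f(P)`.
PROOF: replace `y l` by `b l : B` (`exists_sub_lt_one`); the classes of the `b l` in `B ⧸ P` are
linearly independent over `R ⧸ 𝔪` (lift coefficients to `R`; `b ∈ P ↔ v_P b < 1`:
`HeightOneSpectrum.valuation_lt_one_iff_mem`); `B ⧸ P` is finite over `R ⧸ 𝔪`;
`LinearIndependent.fintype_card_le_finrank`; `Ideal.inertiaDeg'` unfolds to this `finrank`
(`Ideal.inertiaDeg'_algebraMap`, needs `liesOver_maximalIdeal`). -/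
theorem card_le_inertiaDeg (P : HeightOneSpectrum B) {κ : Type*} [Fintype κ] (y : κ → L)
    (hy : IsIndepAt R P y) :
    Fintype.card κ ≤ (IsLocalRing.maximalIdeal R).inertiaDeg' P.asIdeal := by
  have := liesOver_maximalIdeal R P
  obtain ⟨b, -, hli⟩ := D3_aux R P y hy
  rw [Ideal.inertiaDeg'_algebraMap]
  exact hli.fintype_card_le_finrank

/-- **Leaf D3c.** If `#κ = f(P)` the residues of the `y l` span the residue field.
PROOF: as in `card_le_inertiaDeg`; a linearly independent family of cardinality `finrank` spans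
(`LinearIndependent.span_eq_top_of_card_eq_finrank'`); apply it to the class of `b : B` with
`v_P (x - b) < 1`. -/
theorem exists_approx_of_card_eq (P : HeightOneSpectrum B) {κ : Type*} [Fintype κ] (y : κ → L)
    (hy : IsIndepAt R P y)
    (hcard : Fintype.card κ = (IsLocalRing.maximalIdeal R).inertiaDeg' P.asIdeal)
    (x : L) (hx : P.valuation L x ≤ 1) :
    ∃ c : κ → R, P.valuation L (x - ∑ l, algebraMap R L (c l) * y l) < 1 := by
  have := liesOver_maximalIdeal R P
  obtain ⟨b, hb, hli⟩ := D3_aux R P y hy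
  rw [Ideal.inertiaDeg'_algebraMap] at hcard
  let _ : Field (R ⧸ IsLocalRing.maximalIdeal R) := Ideal.Quotient.field _
  have hspan := hli.span_eq_top_of_card_eq_finrank' hcard
  obtain ⟨b₀, hb₀⟩ := exists_sub_lt_one P x hx
  have hmem : Ideal.Quotient.mk P.asIdeal b₀ ∈
      Submodule.span (R ⧸ IsLocalRing.maximalIdeal R)
        (Set.range fun l => Ideal.Quotient.mk P.asIdeal (b l)) := by
    rw [hspan]; exact Submodule.mem_top
  obtain ⟨g, hg⟩ := (Submodule.mem_span_range_iff_exists_fun _).mp hmem
  choose c hc using fun l => Ideal.Quotient.mk_surjective (g l)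
  refine ⟨c, ?_⟩
  have h1 : ∑ l, g l • Ideal.Quotient.mk P.asIdeal (b l) =
      Ideal.Quotient.mk P.asIdeal (∑ l, algebraMap R B (c l) * b l) := by
    rw [map_sum]
    refine Finset.sum_congr rfl fun l _ => ?_
    rw [← hc l, Algebra.smul_def, Ideal.Quotient.algebraMap_mk_of_liesOver, map_mul]
  rw [h1, eq_comm, Ideal.Quotient.eq, ← P.valuation_lt_one_iff_mem (K := L)] at hg
  have hg' : P.valuation L (algebraMap B L b₀ -
      algebraMap B L (∑ l, algebraMap R B (c l) * b l)) < 1 := by
    rw [← map_sub]; exact hg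
  have h2 := D3_sum_sub_lt R P y b hb c
  have h3 : x - ∑ l, algebraMap R L (c l) * y l =
      (x - algebraMap B L b₀) + (algebraMap B L b₀ -
        algebraMap B L (∑ l, algebraMap R B (c l) * b l)) -
      (∑ l, algebraMap R L (c l) * y l - algebraMap B L (∑ l, algebraMap R B (c l) * b l)) := by
    ring
  rw [h3]
  exact Valuation.map_sub_lt _ (Valuation.map_add_lt _ hb₀ hg') h2

end Fermat.Agent.S36R.Val
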