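import Fermat.Agent.S36R.Val.Abs.D2

/-! # S36R/Val/Abs, leaf D4 : counting with `∑ e f = n` -/

set_option autoImplicit false
set_option linter.deprecated false
set_option linter.unusedSectionVars false

open IsDedekindDomain WithZero Module

noncomputable section

namespace Fermat.Agent.S36R.Val

variable (R K : Type*) {L B : Type*} [CommRing R] [IsDomain R] [IsDiscreteValuationRing R]
  [Field K] [Field L] [Algebra R K] [IsFractionRing R K] [Algebra K L] [Algebra R L]
  [IsScalarTower R K L]
  [CommRing B] [IsDedekindDomain B] [Algebra R B] [Algebra B L] [IsScalarTower R B L]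
  [IsIntegralClosure B R L] [IsFractionRing B L] [Module.Finite R B]

/-- **Leaf D4 (counting).**
PROOF: `Ideal.sum_ramification_inertia B K L (p := maximalIdeal R) hp0` is a sum over
`primesOverFinset (maximalIdeal R) B`; the `(P i).asIdeal` are distinct elements of this Finset
(`mem_primesOverFinset_iff`, `liesOver_maximalIdeal`), every element of the Finset is the `asIdeal`
of a `HeightOneSpectrum`, all terms are positive
(`IsDedekindDomain.ramificationIdx'_ne_zero_of_liesOver`, `Ideal.inertiaDeg'_ne_zero`), so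
`∑ i, e i * f i ≤ ∑ i, e(P i) f(P i) ≤ ∑_all = finrank ≤ ∑ i, e i * f i` forces equality everywhere. -/
theorem counting {ι : Type*} [Fintype ι] (P : ι → HeightOneSpectrum B)
    (hP : Function.Injective P) (e f : ι → ℕ)
    (he : ∀ i, e i ≤ (IsLocalRing.maximalIdeal R).ramificationIdx' (P i).asIdeal)
    (hf : ∀ i, f i ≤ (IsLocalRing.maximalIdeal R).inertiaDeg' (P i).asIdeal)
    (hsum : finrank K L ≤ ∑ i, e i * f i) :
    Function.Surjective P ∧
      ∀ i, e i = (IsLocalRing.maximalIdeal R).ramificationIdx' (P i).asIdeal ∧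
        f i = (IsLocalRing.maximalIdeal R).inertiaDeg' (P i).asIdeal := by
  classical
  have hp0 : IsLocalRing.maximalIdeal R ≠ ⊥ := IsDiscreteValuationRing.not_a_field R
  have hinj : Function.Injective (algebraMap R B) := by
    have h1 : Function.Injective (algebraMap R L) := by
      rw [IsScalarTower.algebraMap_eq R K L]
      exact (algebraMap K L).injective.comp (IsFractionRing.injective R K)
    rw [IsScalarTower.algebraMap_eq R B L] at h1
    exact Function.Injective.of_comp h1
  have : FaithfulSMul R B := (faithfulSMul_iff_algebraMap_injective R B).mpr hinj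
  set p := IsLocalRing.maximalIdeal R with hp
  set E : Ideal B → ℕ := fun Q => p.ramificationIdx' Q * p.inertiaDeg' Q with hE
  have hmem : ∀ Q : HeightOneSpectrum B, Q.asIdeal ∈ IsDedekindDomain.primesOverFinset p B := fun Q =>
    (IsDedekindDomain.mem_primesOverFinset_iff hp0 _).mpr ⟨Q.isPrime, liesOver_maximalIdeal R Q⟩
  have hpos : ∀ Q ∈ IsDedekindDomain.primesOverFinset p B, 0 < p.ramificationIdx' Q ∧ 0 < p.inertiaDeg' Q := by
    intro Q hQ
    have : Q.IsPrime := ((IsDedekindDomain.mem_primesOverFinset_iff hp0 _).mp hQ).1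
    have : Q.LiesOver p := ((IsDedekindDomain.mem_primesOverFinset_iff hp0 _).mp hQ).2
    exact ⟨Nat.pos_iff_ne_zero.mpr (Ideal.IsDedekindDomain.ramificationIdx'_ne_zero_of_liesOver _ hp0),
      Nat.pos_iff_ne_zero.mpr (Ideal.inertiaDeg'_ne_zero p Q)⟩
  have htot : ∑ Q ∈ IsDedekindDomain.primesOverFinset p B, E Q = finrank K L :=
    Ideal.sum_ramification_inertia B K L hp0
  have hinjI : Function.Injective fun i => (P i).asIdeal := fun i j h =>
    hP (HeightOneSpectrum.ext h)
  set T : Finset (Ideal B) := Finset.univ.image fun i => (P i).asIdeal with hT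
  have hTS : T ⊆ IsDedekindDomain.primesOverFinset p B := by
    intro Q hQ
    obtain ⟨i, -, rfl⟩ := Finset.mem_image.mp hQ
    exact hmem _
  have hsumT : ∑ Q ∈ T, E Q = ∑ i, E (P i).asIdeal :=
    Finset.sum_image fun i _ j _ h => hinjI h
  have hle1 : ∀ i ∈ (Finset.univ : Finset ι), e i * f i ≤ E (P i).asIdeal := fun i _ =>
    Nat.mul_le_mul (he i) (hf i)
  have h1 : ∑ i, e i * f i ≤ ∑ i, E (P i).asIdeal := Finset.sum_le_sum hle1
  have h2 : ∑ Q ∈ T, E Q ≤ ∑ Q ∈ IsDedekindDomain.primesOverFinset p B, E Q :=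
    Finset.sum_le_sum_of_subset hTS
  have heq1 : ∑ i, e i * f i = ∑ i, E (P i).asIdeal := by omega
  have heq2 : ∑ Q ∈ T, E Q = ∑ Q ∈ IsDedekindDomain.primesOverFinset p B, E Q := by omega
  refine ⟨?_, ?_⟩
  · intro Q
    by_contra hQ
    have hQT : Q.asIdeal ∉ T := by
      intro h
      obtain ⟨i, -, hi⟩ := Finset.mem_image.mp h
      exact hQ ⟨i, HeightOneSpectrum.ext hi⟩
    have h3 : ∑ Q ∈ T, E Q < ∑ Q ∈ IsDedekindDomain.primesOverFinset p B, E Q :=
      Finset.sum_lt_sum_of_subset hTS (hmem Q) hQT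
        (Nat.mul_pos (hpos _ (hmem Q)).1 (hpos _ (hmem Q)).2) fun _ _ _ => Nat.zero_le _
    omega
  · intro i
    have h4 := (Finset.sum_eq_sum_iff_of_le hle1).mp heq1 i (Finset.mem_univ i)
    obtain ⟨hp1, hp2⟩ := hpos _ (hmem (P i))
    have he' := he i
    have hf' := hf i
    simp only [hE] at h4
    constructor
    · by_contra hne
      have hlt : e i < p.ramificationIdx' (P i).asIdeal := lt_of_le_of_ne he' hne
      have : e i * f i < p.ramificationIdx' (P i).asIdeal * p.inertiaDeg' (P i).asIdeal :=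
        lt_of_le_of_lt (Nat.mul_le_mul_left _ hf') (Nat.mul_lt_mul_of_pos_right hlt hp2)
      omega
    · by_contra hne
      have hlt : f i < p.inertiaDeg' (P i).asIdeal := lt_of_le_of_ne hf' hne
      have : e i * f i < p.ramificationIdx' (P i).asIdeal * p.inertiaDeg' (P i).asIdeal :=
        lt_of_le_of_lt (Nat.mul_le_mul_right _ he') (Nat.mul_lt_mul_of_pos_left hlt hp1)
      omega

end Fermat.Agent.S36R.Val
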