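import Mathlib

/-!
# S36R/Val/Abs : extensions of a DVR to a finite separable extension (pure Mathlib): definitions

`R` a DVR with fraction field `K`, `L / K` finite, `B` the integral closure of `R` in `L`
(a Dedekind domain, finite over `R`).  The valuation subrings `W ≠ ⊤` of `L` containing `R` are the
`(P.valuation L).valuationSubring`, `P : HeightOneSpectrum B`, and `∑_P e(P) f(P) = [L : K]`.

**Consequence used in block R-VAL** (`abs_main`, file `Abs/Main.lean`): if finitely many pairwise
distinct extensions `W i` of a discrete valuation subring `G` of `E` are given together with *lower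
bounds* `e i`, `f i` for the ramification indices and residue degrees and
`[F : E] ≤ ∑ e i * f i`, then the `W i` are all the extensions, `⋂ W i` is the integral closure of
`G`, and the lower bounds are sharp.
-/

set_option autoImplicit false

open IsDedekindDomain WithZero Module

noncomputable section

namespace Fermat.Agent.S36R.Val

/-- A family of `P`-integral elements of `L` whose residues are linearly independent over the residue
field of `R`. -/
def IsIndepAt (R : Type*) {L B : Type*} [CommRing R] [IsLocalRing R] [Field L] [Algebra R L]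
    [CommRing B] [IsDedekindDomain B] [Algebra B L] [IsFractionRing B L]
    (P : HeightOneSpectrum B) {κ : Type*} [Fintype κ] (y : κ → L) : Prop :=
  (∀ l, P.valuation L (y l) ≤ 1) ∧
    ∀ c : κ → R, P.valuation L (∑ l, algebraMap R L (c l) * y l) < 1 →
      ∀ l, c l ∈ IsLocalRing.maximalIdeal R

variable {E F : Type*} [Field E] [Field F] [Algebra E F]

/-- `y : κ → F` is a family of elements of `W` whose residues are linearly independent over the
residue field of `G`. -/
def IsIndep (G : ValuationSubring E) (W : ValuationSubring F) {κ : Type*} [Fintype κ]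
    (y : κ → F) : Prop :=
  (∀ l, y l ∈ W) ∧
    ∀ c : κ → E, (∀ l, c l ∈ G) → ∑ l, algebraMap E F (c l) * y l ∈ W.nonunits →
      ∀ l, c l ∈ G.nonunits

/-- `ϖ` is a uniformiser of the discrete valuation subring `G`. -/
structure IsUnif (G : ValuationSubring E) (ϖ : E) : Prop where
  ne_zero : ϖ ≠ 0
  mem : ϖ ∈ G.nonunits
  exists_zpow : ∀ x : E, x ≠ 0 → ∃ n : ℤ, x * ϖ ^ n ∈ G ∧ (x * ϖ ^ n)⁻¹ ∈ G

/-- `W` extends `G`, with ramification index `≥ e` and residue degree `≥ f`. -/
structure EFData (G : ValuationSubring E) (ϖ : E) (W : ValuationSubring F) (e f : ℕ) : Prop where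
  comap : W.comap (algebraMap E F) = G
  exists_b : ∃ b ∈ W.nonunits, b ≠ 0 ∧ algebraMap E F ϖ / b ^ e ∈ W
  exists_y : ∃ (κ : Type) (_ : Fintype κ) (y : κ → F), Fintype.card κ = f ∧ IsIndep G W y

/-- The conclusions of `abs_main`. -/
structure AbsConcl (G : ValuationSubring E) (ϖ : E) {ι : Type*} (W : ι → ValuationSubring F)
    (e f : ι → ℕ) : Prop where
  /-- `⋂ W i` is integral over `G` -/
  integral : ∀ x : F, (∀ i, x ∈ W i) →
    ∃ p : Polynomial E, p.Monic ∧ (∀ n, p.coeff n ∈ G) ∧ Polynomial.aeval x p = 0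
  /-- every extension of `G` is one of the `W i` -/
  all : ∀ V : ValuationSubring F, V.comap (algebraMap E F) = G → ∃ i, V = W i
  /-- the ramification index is exactly `e i` -/
  unif : ∀ i, ∀ b ∈ (W i).nonunits, algebraMap E F ϖ / b ^ e i ∈ W i →
    ∀ x ∈ (W i).nonunits, x / b ∈ W i
  /-- the residue degree is exactly `f i` -/
  span : ∀ i, ∀ (κ : Type) [Fintype κ] (y : κ → F), Fintype.card κ = f i → IsIndep G (W i) y →
    ∀ x ∈ W i, ∃ c : κ → E, (∀ l, c l ∈ G) ∧
      x - ∑ l, algebraMap E F (c l) * y l ∈ (W i).nonunits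
  /-- discreteness -/
  arch : ∀ i, ∀ x : F, ∃ m : ℕ, algebraMap E F ϖ ^ m * x ∈ W i
  /-- weak approximation -/
  approx : ∀ x : ι → F, (∀ i, x i ∈ W i) → ∃ y : F, ∀ i, y ∈ W i ∧ y - x i ∈ (W i).nonunits
  /-- no inclusions -/
  incomparable : ∀ i j, W i ≤ W j → i = j
  /-- the value group: `e i • v(F^×) = v(ϖ)^ℤ` -/
  valgrp : ∀ i, ∀ z : F, z ≠ 0 → ∃ x : ℤ, (W i).valuation (z ^ e i / algebraMap E F ϖ ^ x) = 1
  /-- `v(x) < 1 → v(x) ^ e i ≤ v(ϖ)` -/
  pow_div : ∀ i, ∀ x : F, (W i).valuation x < 1 →
    (W i).valuation x ^ e i ≤ (W i).valuation (algebraMap E F ϖ)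
  /-- the bounds are positive -/
  e_pos : ∀ i, 0 < e i
  f_pos : ∀ i, 0 < f i

end Fermat.Agent.S36R.Val
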