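import Fermat.Agent.S36R.Val.Abs.Defs

/-!
# S36R/Val/Abs/Gauss : residually transcendental extensions = Gauss valuations (pure Mathlib)

`O` a valuation subring of `K`, `F / K` a field extension, `c : F`.  A valuation subring `W` of `F`
is a *Gauss extension* of `O` with respect to `c` if `W ∩ K = O`, `c ∈ W` and the residue of `c` is
transcendental over the residue field of `O` (stated elementwise: `trans`).
Then `W ∩ K(c)` is the Gauss valuation ring: it does not depend on `W`.
-/

set_option autoImplicit false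

open Polynomial IntermediateField

noncomputable section

namespace Fermat.Agent.S36R.Val

variable {K F : Type*} [Field K] [Field F] [Algebra K F]

/-- `W` restricts to `O` on `K`, and `c ∈ W` is residually transcendental. -/
structure IsGaussExt (O : ValuationSubring K) (W : ValuationSubring F) (c : F) : Prop where
  comap : W.comap (algebraMap K F) = O
  mem : c ∈ W
  trans : ∀ P : K[X], (∀ n, P.coeff n ∈ O) → aeval c P ∈ W.nonunits → ∀ n, P.coeff n ∈ O.nonunits

/-- primitive polynomials: coefficients in `O`, one of them a unit. -/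
def IsPrim (O : ValuationSubring K) (P : K[X]) : Prop :=
  (∀ n, P.coeff n ∈ O) ∧ ∃ n, P.coeff n ∉ O.nonunits

/-- **Leaf G1.** pivot normalisation.  (Copy of `Fermat/Agent/GAL/Gauss/RatJ.lean :
exists_normalise`: divide by a coefficient of maximal valuation,
`Finset.exists_max_image P.support (fun n => O.valuation (P.coeff n))`.) -/
theorem exists_prim (O : ValuationSubring K) (P : K[X]) (hP : P ≠ 0) :
    ∃ (a : K) (P₁ : K[X]), a ≠ 0 ∧ IsPrim O P₁ ∧ P = C a * P₁ := by
  classical
  have hne : P.support.Nonempty := by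
    rw [Finset.nonempty_iff_ne_empty, Ne, Polynomial.support_eq_empty]
    exact hP
  obtain ⟨n₀, hn₀, hmax⟩ := Finset.exists_max_image P.support
    (fun n => O.valuation (P.coeff n)) hne
  have ha : P.coeff n₀ ≠ 0 := Polynomial.mem_support_iff.mp hn₀
  refine ⟨P.coeff n₀, C (P.coeff n₀)⁻¹ * P, ha, ⟨fun n => ?_, n₀, ?_⟩, ?_⟩
  · rw [coeff_C_mul, ← ValuationSubring.valuation_le_one_iff, map_mul, map_inv₀]
    by_cases hn : n ∈ P.support
    · have h1 := hmax n hn
      have h2 : O.valuation (P.coeff n₀) ≠ 0 := (Valuation.ne_zero_iff _).mpr ha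
      calc (O.valuation (P.coeff n₀))⁻¹ * O.valuation (P.coeff n)
          ≤ (O.valuation (P.coeff n₀))⁻¹ * O.valuation (P.coeff n₀) := mul_le_mul' le_rfl h1
        _ = 1 := inv_mul_cancel₀ h2
    · rw [Polynomial.notMem_support_iff.mp hn, map_zero, mul_zero]
      exact zero_le
  · rw [coeff_C_mul, inv_mul_cancel₀ ha, ValuationSubring.mem_nonunits_iff, map_one]
    exact lt_irrefl _
  · rw [← mul_assoc, ← C_mul, mul_inv_cancel₀ ha, C_1, one_mul]

variable {O : ValuationSubring K} {W : ValuationSubring F} {c : F}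

/-- **Leaf G2.** a polynomial with coefficients in `O` takes a value in `W`. -/
theorem IsGaussExt.aeval_mem (h : IsGaussExt O W c) {P : K[X]} (hP : ∀ n, P.coeff n ∈ O) :
    aeval c P ∈ W := by
  rw [aeval_eq_sum_range]
  refine sum_mem fun i _ => ?_
  rw [Algebra.smul_def]
  refine W.mul_mem _ _ ?_ (pow_mem h.mem i)
  have h1 : P.coeff i ∈ W.comap (algebraMap K F) := by
    rw [h.comap]
    exact hP i
  exact h1

theorem IsGaussExt.Gauss_valuation_aeval (h : IsGaussExt O W c) {P : K[X]} (hP : IsPrim O P) :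
    W.valuation (aeval c P) = 1 := by
  have h1 : W.valuation (aeval c P) ≤ 1 :=
    (ValuationSubring.valuation_le_one_iff _ _).mpr (h.aeval_mem hP.1)
  refine le_antisymm h1 (not_lt.mp fun h2 => ?_)
  obtain ⟨n, hn⟩ := hP.2
  exact hn (h.trans P hP.1 (W.mem_nonunits_iff.mpr h2) n)

/-- **Leaf G2'.** a primitive polynomial takes a unit value. -/
theorem IsGaussExt.inv_aeval_mem (h : IsGaussExt O W c) {P : K[X]} (hP : IsPrim O P) :
    (aeval c P)⁻¹ ∈ W := by
  rw [← ValuationSubring.valuation_le_one_iff, map_inv₀, h.Gauss_valuation_aeval hP, inv_one]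

/-- **Leaf G3.** -/
theorem IsGaussExt.transcendental (h : IsGaussExt O W c) : Transcendental K c := by
  rw [transcendental_iff]
  intro P hP
  by_contra hP0
  obtain ⟨a, P₁, ha, hprim, rfl⟩ := exists_prim O P hP0
  rw [map_mul, aeval_C] at hP
  have h1 : aeval c P₁ = 0 := by
    rcases mul_eq_zero.mp hP with h2 | h2
    · exact absurd ((map_eq_zero _).mp h2) ha
    · exact h2
  have h3 := h.Gauss_valuation_aeval hprim
  rw [h1, map_zero] at h3
  exact zero_ne_one h3

/-- **Leaf G4.** `K[c] ∩ W = O[c]`. (`P = C a * P₁`, `aeval c P₁` a unit of `W`, so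
`algebraMap a ∈ W`, `a ∈ O` by `comap`.) -/
theorem IsGaussExt.coeff_mem (h : IsGaussExt O W c) {P : K[X]} (hP : aeval c P ∈ W) (n : ℕ) :
    P.coeff n ∈ O := by
  by_cases hP0 : P = 0
  · rw [hP0, coeff_zero]
    exact O.zero_mem
  obtain ⟨a, P₁, ha, hprim, rfl⟩ := exists_prim O P hP0
  rw [map_mul, aeval_C] at hP
  have h1 := h.Gauss_valuation_aeval hprim
  have h2 : aeval c P₁ ≠ 0 := by
    intro h0
    rw [h0, map_zero] at h1
    exact zero_ne_one h1
  have h3 : algebraMap K F a ∈ W := by
    have h4 := W.mul_mem _ _ hP (h.inv_aeval_mem hprim)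
    rwa [mul_assoc, mul_inv_cancel₀ h2, mul_one] at h4
  have h5 : a ∈ O := by
    rw [← h.comap]
    exact h3
  rw [coeff_C_mul]
  exact O.mul_mem _ _ h5 (hprim.1 n)

end Fermat.Agent.S36R.Val
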