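import Fermat.Agent.S36R.Val.Abs.Gauss

/-! # S36R/Val/Abs : the Gauss valuation ring of `K(c)` (pure Mathlib) -/

set_option autoImplicit false

open Polynomial IntermediateField

noncomputable section

namespace Fermat.Agent.S36R.Val

variable {K F : Type*} [Field K] [Field F] [Algebra K F]

/-- **Leaf G5.** normal form of the elements of `K(c)` (`IntermediateField.mem_adjoin_simple_iff`,
`exists_prim`). -/
theorem exists_normalForm_adjoin (O : ValuationSubring K) (c : F) (r : F) (hr : r ∈ K⟮c⟯)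
    (h0 : r ≠ 0) :
    ∃ (a : K) (P Q : K[X]), a ≠ 0 ∧ IsPrim O P ∧ IsPrim O Q ∧
      r = algebraMap K F a * (aeval c P / aeval c Q) := by
  obtain ⟨R, S, hRS⟩ := IntermediateField.mem_adjoin_simple_iff K r |>.1 hr
  have hR : R ≠ 0 := by
    rintro rfl
    apply h0
    rw [hRS, map_zero, zero_div]
  have hS : S ≠ 0 := by
    rintro rfl
    apply h0
    rw [hRS, map_zero, div_zero]
  obtain ⟨a, P, ha, hP, rfl⟩ := exists_prim O R hR
  obtain ⟨b, Q, hb, hQ, rfl⟩ := exists_prim O S hS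
  refine ⟨a / b, P, Q, div_ne_zero ha hb, hP, hQ, ?_⟩
  rw [hRS, map_mul, map_mul, aeval_C, aeval_C, map_div₀, mul_div_mul_comm]

/-- auxiliary: the nonunits of a valuation subring. -/
theorem gauss2_mem_nonunits_iff_inv {L : Type*} [Field L] (A : ValuationSubring L) (x : L) :
    x ∈ A.nonunits ↔ x = 0 ∨ x⁻¹ ∉ A := by
  rw [ValuationSubring.mem_nonunits_iff]
  rcases eq_or_ne x 0 with rfl | hx
  · simp
  · rw [← ValuationSubring.valuation_le_one_iff, map_inv₀]
    have hv : A.valuation x ≠ 0 := (Valuation.ne_zero_iff _).2 hx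
    simp only [hx, false_or, not_le]
    rw [one_lt_inv₀ (zero_lt_iff.2 hv)]

variable {O : ValuationSubring K} {W : ValuationSubring F} {c : F}

/-- auxiliary: a primitive polynomial takes a nonzero value. -/
theorem IsGaussExt.gauss2_aeval_ne_zero (h : IsGaussExt O W c) {P : K[X]} (hP : IsPrim O P) :
    aeval c P ≠ 0 := by
  intro h0
  obtain ⟨n, hn⟩ := hP.2
  apply hn
  apply h.trans P hP.1
  rw [h0, gauss2_mem_nonunits_iff_inv]
  exact Or.inl rfl

/-- **Leaf G6.** membership in `W` of an element of `K(c)` in normal form. -/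
theorem IsGaussExt.mem_iff (h : IsGaussExt O W c) {a : K} {P Q : K[X]} (hP : IsPrim O P)
    (hQ : IsPrim O Q) : algebraMap K F a * (aeval c P / aeval c Q) ∈ W ↔ a ∈ O := by
  have hP0 := h.gauss2_aeval_ne_zero hP
  have hQ0 := h.gauss2_aeval_ne_zero hQ
  have hu : aeval c P / aeval c Q ∈ W := by
    rw [div_eq_mul_inv]
    exact W.mul_mem _ _ (h.aeval_mem hP.1) (h.inv_aeval_mem hQ)
  have hu' : aeval c Q / aeval c P ∈ W := by
    rw [div_eq_mul_inv]
    exact W.mul_mem _ _ (h.aeval_mem hQ.1) (h.inv_aeval_mem hP)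
  rw [← h.comap, ValuationSubring.mem_comap]
  constructor
  · intro h1
    have h2 := W.mul_mem _ _ h1 hu'
    have h3 : algebraMap K F a * (aeval c P / aeval c Q) * (aeval c Q / aeval c P)
        = algebraMap K F a := by
      field_simp
    rwa [h3] at h2
  · intro h1
    exact W.mul_mem _ _ h1 hu

/-- **Leaf G6'.** -/
theorem IsGaussExt.mem_nonunits_iff (h : IsGaussExt O W c) {a : K} {P Q : K[X]} (hP : IsPrim O P)
    (hQ : IsPrim O Q) :
    algebraMap K F a * (aeval c P / aeval c Q) ∈ W.nonunits ↔ a ∈ O.nonunits := by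
  have hP0 := h.gauss2_aeval_ne_zero hP
  have hQ0 := h.gauss2_aeval_ne_zero hQ
  rw [gauss2_mem_nonunits_iff_inv, gauss2_mem_nonunits_iff_inv]
  have h1 : (algebraMap K F a * (aeval c P / aeval c Q))⁻¹
      = algebraMap K F a⁻¹ * (aeval c Q / aeval c P) := by
    rw [mul_inv, inv_div, map_inv₀]
  rw [h1, h.mem_iff hQ hP]
  have h2 : algebraMap K F a * (aeval c P / aeval c Q) = 0 ↔ a = 0 := by
    rw [mul_eq_zero, div_eq_zero_iff]
    simp [hP0, hQ0]
  rw [h2]

/-- **G7.** the restriction of a Gauss extension to `K(c)` does not depend on the extension. -/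
theorem IsGaussExt.comap_eq {W' : ValuationSubring F} (h : IsGaussExt O W c)
    (h' : IsGaussExt O W' c) :
    W.comap (algebraMap K⟮c⟯ F) = W'.comap (algebraMap K⟮c⟯ F) := by
  ext r
  rw [ValuationSubring.mem_comap, ValuationSubring.mem_comap]
  by_cases h0 : algebraMap K⟮c⟯ F r = 0
  · rw [h0]; exact ⟨fun _ => W'.zero_mem, fun _ => W.zero_mem⟩
  obtain ⟨a, P, Q, -, hP, hQ, hr⟩ := exists_normalForm_adjoin O c (algebraMap K⟮c⟯ F r) r.2 h0
  rw [hr, h.mem_iff hP hQ, h'.mem_iff hP hQ]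

/-- **Leaf G8.** the Gauss valuation ring of `K(c)` is discrete with the same uniformiser. -/
theorem IsGaussExt.isUnif (h : IsGaussExt O W c) {ϖ : K} (hϖ : IsUnif O ϖ) :
    IsUnif (W.comap (algebraMap K⟮c⟯ F)) (algebraMap K K⟮c⟯ ϖ) := by
  have hϖ0 := hϖ.ne_zero
  refine ⟨by simpa using hϖ0, ?_, ?_⟩
  · rw [gauss2_mem_nonunits_iff_inv]
    right
    rw [ValuationSubring.mem_comap, map_inv₀, ← IsScalarTower.algebraMap_apply, ← map_inv₀,
      ← ValuationSubring.mem_comap, h.comap]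
    exact ((gauss2_mem_nonunits_iff_inv O ϖ).1 hϖ.mem).resolve_left hϖ0
  · intro x hx
    have hx' : algebraMap K⟮c⟯ F x ≠ 0 := by simpa using hx
    obtain ⟨a, P, Q, ha, hP, hQ, hr⟩ := exists_normalForm_adjoin O c (algebraMap K⟮c⟯ F x) x.2 hx'
    obtain ⟨n, hn1, hn2⟩ := hϖ.exists_zpow a ha
    have key : algebraMap K⟮c⟯ F (x * algebraMap K K⟮c⟯ ϖ ^ n)
        = algebraMap K F (a * ϖ ^ n) * (aeval c P / aeval c Q) := by
      rw [map_mul, map_zpow₀, ← IsScalarTower.algebraMap_apply, hr, map_mul, map_zpow₀]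
      ring
    refine ⟨n, ?_, ?_⟩
    · rw [ValuationSubring.mem_comap, key, h.mem_iff hP hQ]
      exact hn1
    · rw [ValuationSubring.mem_comap, map_inv₀, key, mul_inv, inv_div, ← map_inv₀,
        h.mem_iff hQ hP]
      exact hn2

/-- **Leaf G9.** elements of `W ∩ K(c)` are fractions `P(c) / Q(c)`, `P ∈ O[X]`, `Q` primitive. -/
theorem IsGaussExt.exists_frac (h : IsGaussExt O W c) {r : F} (hr : r ∈ K⟮c⟯) (hrW : r ∈ W) :
    ∃ P Q : K[X], (∀ n, P.coeff n ∈ O) ∧ IsPrim O Q ∧ r = aeval c P / aeval c Q := by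
  rcases eq_or_ne r 0 with rfl | h0
  · refine ⟨0, 1, fun n => by simpa using O.zero_mem, ⟨fun n => ?_, 0, ?_⟩, by simp⟩
    · rw [coeff_one]
      split_ifs
      · exact O.one_mem
      · exact O.zero_mem
    · rw [coeff_one_zero, gauss2_mem_nonunits_iff_inv]
      simpa using O.one_mem
  · obtain ⟨a, P, Q, -, hP, hQ, hr'⟩ := exists_normalForm_adjoin O c r hr h0
    have ha : a ∈ O := by
      rw [← h.mem_iff hP hQ, ← hr']
      exact hrW
    refine ⟨C a * P, Q, fun n => ?_, hQ, ?_⟩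
    · rw [coeff_C_mul]
      exact O.mul_mem _ _ ha (hP.1 n)
    · rw [hr', map_mul, aeval_C, mul_div_assoc]

end Fermat.Agent.S36R.Val
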