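import Fermat.Agent.S36R.Val.Abs.D0
import Fermat.Agent.S36R.Val.Abs.D1
import Fermat.Agent.S36R.Val.Abs.D3
import Fermat.Agent.S36R.Val.Abs.D4

/-! # S36R/Val/Abs : assembly of D0-D5 -/

set_option autoImplicit false
set_option linter.deprecated false
set_option maxHeartbeats 400000

open IsDedekindDomain WithZero Module

noncomputable section

namespace Fermat.Agent.S36R.Val
section ZM
variable {L : Type*} [Field L] (v : Valuation L ℤᵐ⁰) {ϖ : L} {e : ℕ}

theorem zm_exists_exp {x : L} (hx : x ≠ 0) : ∃ n : ℤ, v x = exp n :=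
  ⟨log (v x), (exp_log ((v.ne_zero_iff).2 hx)).symm⟩

theorem zm_e_le (hϖ : v ϖ = exp (-(e : ℤ))) {b : L} (hb0 : b ≠ 0) (hb : v b < 1) {e' : ℕ}
    (h : v (ϖ / b ^ e') ≤ 1) : e' ≤ e := by
  obtain ⟨n, hn⟩ := zm_exists_exp v hb0
  rw [hn, ← exp_zero, exp_lt_exp] at hb
  rw [map_div₀, map_pow, hϖ, hn, ← exp_nsmul, ← exp_sub, ← exp_zero, exp_le_exp] at h
  have h1 : (e' : ℤ) * (-n) ≤ e := by
    have : (e' • n : ℤ) = e' * n := by simp
    rw [this] at h; linarith
  have h2 : (e' : ℤ) * 1 ≤ e' * (-n) := by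
    apply mul_le_mul_of_nonneg_left _ (by positivity); omega
  have : (e' : ℤ) ≤ e := by linarith
  exact_mod_cast this

theorem zm_unif (hϖ : v ϖ = exp (-(e : ℤ))) (he : 0 < e) {b : L} (hb : v b < 1)
    (h : v (ϖ / b ^ e) ≤ 1) {x : L} (hx : v x < 1) : v (x / b) ≤ 1 := by
  by_cases hb0 : b = 0
  · simp [hb0]
  by_cases hx0 : x = 0
  · simp [hx0]
  obtain ⟨n, hn⟩ := zm_exists_exp v hb0
  obtain ⟨m, hm⟩ := zm_exists_exp v hx0
  rw [hn, ← exp_zero, exp_lt_exp] at hb
  rw [hm, ← exp_zero, exp_lt_exp] at hx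
  rw [map_div₀, map_pow, hϖ, hn, ← exp_nsmul, ← exp_sub, ← exp_zero, exp_le_exp] at h
  rw [map_div₀, hn, hm, ← exp_sub, ← exp_zero, exp_le_exp]
  have h0 : (e • n : ℤ) = e * n := by simp
  rw [h0] at h
  have he' : (0 : ℤ) < e := by exact_mod_cast he
  have : -1 ≤ n := by
    by_contra hcon
    have : n ≤ -2 := by omega
    nlinarith
  omega

theorem zm_arch (hϖ : v ϖ = exp (-(e : ℤ))) (he : 0 < e) (x : L) : ∃ m : ℕ, v (ϖ ^ m * x) ≤ 1 := by
  by_cases hx0 : x = 0
  · exact ⟨0, by simp [hx0]⟩
  obtain ⟨n, hn⟩ := zm_exists_exp v hx0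
  refine ⟨n.toNat, ?_⟩
  rw [map_mul, map_pow, hϖ, hn, ← exp_nsmul, ← exp_add, ← exp_zero, exp_le_exp]
  have h0 : (n.toNat • (-(e : ℤ)) : ℤ) = n.toNat * (-(e : ℤ)) := by simp
  rw [h0]
  have he' : (1 : ℤ) ≤ e := by exact_mod_cast he
  have h1 : n ≤ n.toNat := Int.self_le_toNat n
  have h2 : (0 : ℤ) ≤ n.toNat := by positivity
  nlinarith

theorem zm_valgrp (hϖ : v ϖ = exp (-(e : ℤ))) {z : L} (hz : z ≠ 0) :
    ∃ x : ℤ, v (z ^ e / ϖ ^ x) = 1 := by
  obtain ⟨n, hn⟩ := zm_exists_exp v hz
  refine ⟨-n, ?_⟩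
  rw [map_div₀, map_pow, map_zpow₀, hϖ, hn, ← exp_nsmul, ← exp_zsmul, ← exp_sub, exp_eq_one]
  simp; ring

theorem zm_pow_div (hϖ : v ϖ = exp (-(e : ℤ))) {x : L} (hx : v x < 1) : v x ^ e ≤ v ϖ := by
  by_cases hx0 : x = 0
  · by_cases he : e = 0
    · subst he; simp [hϖ]
    · simp [hx0, he]
  obtain ⟨n, hn⟩ := zm_exists_exp v hx0
  rw [hn, ← exp_zero, exp_lt_exp] at hx
  rw [hn, hϖ, ← exp_nsmul, exp_le_exp]
  have h0 : (e • n : ℤ) = e * n := by simp
  rw [h0]
  have he' : (0 : ℤ) ≤ e := by positivity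
  nlinarith

end ZM

section Core

variable {E F : Type*} [Field E] [Field F] [Algebra E F]

theorem abs_mem_iff {B : Type*} [CommRing B] [IsDedekindDomain B] [Algebra B F] [IsFractionRing B F]
    (P : HeightOneSpectrum B) (x : F) :
    x ∈ (P.valuation F).valuationSubring ↔ P.valuation F x ≤ 1 := Iff.rfl

theorem abs_lt_iff {B : Type*} [CommRing B] [IsDedekindDomain B] [Algebra B F] [IsFractionRing B F]
    (P : HeightOneSpectrum B) (x : F) :
    (P.valuation F).valuationSubring.valuation x < 1 ↔ P.valuation F x < 1 :=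
  ((P.valuation F).isEquiv_valuation_valuationSubring.lt_one_iff_lt_one).symm

theorem abs_nonunits_iff {B : Type*} [CommRing B] [IsDedekindDomain B] [Algebra B F]
    [IsFractionRing B F] (P : HeightOneSpectrum B) (x : F) :
    x ∈ (P.valuation F).valuationSubring.nonunits ↔ P.valuation F x < 1 := by
  rw [ValuationSubring.mem_nonunits_iff]; exact abs_lt_iff P x

theorem abs_eq_one_iff {B : Type*} [CommRing B] [IsDedekindDomain B] [Algebra B F]
    [IsFractionRing B F] (P : HeightOneSpectrum B) (x : F) :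
    (P.valuation F).valuationSubring.valuation x = 1 ↔ P.valuation F x = 1 :=
  ((P.valuation F).isEquiv_valuation_valuationSubring.eq_one_iff_eq_one).symm

theorem abs_le_iff {B : Type*} [CommRing B] [IsDedekindDomain B] [Algebra B F]
    [IsFractionRing B F] (P : HeightOneSpectrum B) (x y : F) :
    (P.valuation F).valuationSubring.valuation x ≤ (P.valuation F).valuationSubring.valuation y ↔
      P.valuation F x ≤ P.valuation F y :=
  ((P.valuation F).isEquiv_valuation_valuationSubring x y).symm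

end Core

variable {E F : Type*} [Field E] [Field F] [Algebra E F]

theorem abs_isIndepAt {G : ValuationSubring E} {B : Type*} [CommRing B] [IsDedekindDomain B]
    [Algebra B F] [IsFractionRing B F] (P : HeightOneSpectrum B) {κ : Type*} [Fintype κ]
    {y : κ → F} (hy : IsIndep G (P.valuation F).valuationSubring y) : IsIndepAt G P y := by
  refine ⟨fun l => hy.1 l, fun c hc l => ?_⟩
  have := hy.2 (fun l => (c l : E)) (fun l => (c l).2) ((abs_nonunits_iff P _).2 hc) l
  exact ValuationSubring.coe_mem_nonunits_iff.1 this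

/-- **ABS (assembly of D0-D5).**  `G` a discrete valuation subring of `E` with uniformiser `ϖ`. -/
theorem abs_main [FiniteDimensional E F] [Algebra.IsSeparable E F]
    (G : ValuationSubring E) (ϖ : E) (hG : IsUnif G ϖ)
    {ι : Type*} [Fintype ι] (W : ι → ValuationSubring F) (hW : Function.Injective W)
    (e f : ι → ℕ) (h : ∀ i, EFData G ϖ (W i) (e i) (f i))
    (hsum : finrank E F ≤ ∑ i, e i * f i) : AbsConcl G ϖ W e f := by
  obtain ⟨hDVR, hirr⟩ := isDVR_of_isUnif hG
  have := hDVR
  have : IsDedekindDomain (integralClosure G F) := integralClosure.isDedekindDomain G E F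
  have : IsFractionRing (integralClosure G F) F :=
    integralClosure.isFractionRing_of_finite_extension E F
  have : Module.Finite G (integralClosure G F) := IsIntegralClosure.finite G E F _
  have hext : ∀ V : ValuationSubring F, V.comap (algebraMap E F) = G →
      ∃ P : HeightOneSpectrum (integralClosure G F), (P.valuation F).valuationSubring = V := by
    intro V hV
    apply exists_heightOne G V
    · intro r
      have : (r : E) ∈ V.comap (algebraMap E F) := by rw [hV]; exact r.2
      exact this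
    · intro htop
      have h1 : ϖ⁻¹ ∈ V.comap (algebraMap E F) := by
        rw [htop]; trivial
      rw [hV] at h1
      have h2 := (ValuationSubring.mem_nonunits_iff G).1 hG.mem
      have h3 := (G.valuation_le_one_iff _).2 h1
      have h4 : G.valuation (ϖ * ϖ⁻¹) < 1 := by
        rw [map_mul]; exact mul_lt_one_of_lt_of_le h2 h3
      rw [mul_inv_cancel₀ hG.ne_zero, map_one] at h4
      exact lt_irrefl _ h4
  choose P hP using fun i => hext (W i) (h i).comap
  have hPinj : Function.Injective P := fun i j hij => hW (by rw [← hP i, ← hP j, hij])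
  obtain rfl : W = fun i => ((P i).valuation F).valuationSubring := funext fun i => (hP i).symm
  have hval : ∀ Q : HeightOneSpectrum (integralClosure G F),
      Q.valuation F (algebraMap E F ϖ) =
        exp (-((IsLocalRing.maximalIdeal G).ramificationIdx' Q.asIdeal : ℤ)) :=
    fun Q => valuation_irreducible G E Q hirr
  have he : ∀ i, e i ≤ (IsLocalRing.maximalIdeal G).ramificationIdx' (P i).asIdeal := by
    intro i
    obtain ⟨b, hb, hb0, hb'⟩ := (h i).exists_b
    exact zm_e_le _ (hval (P i)) hb0 ((abs_nonunits_iff _ _).1 hb) hb'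
  have hf : ∀ i, f i ≤ (IsLocalRing.maximalIdeal G).inertiaDeg' (P i).asIdeal := by
    intro i
    obtain ⟨κ, _, y, hcard, hy⟩ := (h i).exists_y
    rw [← hcard]
    exact card_le_inertiaDeg G (P i) y (abs_isIndepAt (P i) hy)
  obtain ⟨hsurj, hef⟩ := counting G E P hPinj e f he hf hsum
  have hval' : ∀ i, (P i).valuation F (algebraMap E F ϖ) = exp (-(e i : ℤ)) := by
    intro i; rw [hval, ← (hef i).1]
  have hepos : ∀ i, 0 < e i := by
    intro i
    rcases Nat.eq_zero_or_pos (e i) with h0 | h0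
    · exfalso
      have h1 := hval' i
      rw [h0] at h1
      simp only [Nat.cast_zero, neg_zero, exp_zero] at h1
      have h2 : ϖ⁻¹ ∈ ((P i).valuation F).valuationSubring.comap (algebraMap E F) := by
        rw [ValuationSubring.mem_comap, abs_mem_iff, map_inv₀, map_inv₀, h1, inv_one]
      rw [(h i).comap] at h2
      have h3 := (ValuationSubring.mem_nonunits_iff G).1 hG.mem
      have h4 := (G.valuation_le_one_iff _).2 h2
      have h5 : G.valuation (ϖ * ϖ⁻¹) < 1 := by
        rw [map_mul]; exact mul_lt_one_of_lt_of_le h3 h4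
      rw [mul_inv_cancel₀ hG.ne_zero, map_one] at h5
      exact lt_irrefl _ h5
    · exact h0
  refine
    { integral := ?_
      all := ?_
      unif := ?_
      span := ?_
      arch := ?_
      approx := ?_
      incomparable := ?_
      valgrp := ?_
      pow_div := ?_
      e_pos := hepos
      f_pos := ?_ }
  · intro x hx
    have hx' : ∀ Q : HeightOneSpectrum (integralClosure G F), Q.valuation F x ≤ 1 := by
      intro Q
      obtain ⟨i, rfl⟩ := hsurj Q
      exact hx i
    obtain ⟨b, rfl⟩ := HeightOneSpectrum.mem_integers_of_valuation_le_one F x hx'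
    obtain ⟨p, hp, hp0⟩ := b.2
    refine ⟨p.map (algebraMap G E), hp.map _, fun n => ?_, ?_⟩
    · rw [Polynomial.coeff_map]; exact (p.coeff n).2
    · rw [Polynomial.aeval_map_algebraMap]
      exact hp0
  · intro V hV
    obtain ⟨Q, hQ⟩ := hext V hV
    obtain ⟨i, rfl⟩ := hsurj Q
    exact ⟨i, hQ.symm⟩
  · intro i b hb hb' x hx
    exact zm_unif _ (hval' i) (hepos i) ((abs_nonunits_iff _ _).1 hb) hb'
      ((abs_nonunits_iff _ _).1 hx)
  · intro i κ _ y hcard hy x hx
    obtain ⟨c, hc⟩ := exists_approx_of_card_eq G (P i) y (abs_isIndepAt (P i) hy)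
      (by rw [hcard, (hef i).2]) x hx
    exact ⟨fun l => (c l : E), fun l => (c l).2, (abs_nonunits_iff _ _).2 hc⟩
  · intro i x
    exact zm_arch _ (hval' i) (hepos i) x
  · intro x hx
    obtain ⟨b, hb⟩ := exists_weak_approx P hPinj x hx
    refine ⟨algebraMap _ F b, fun i => ⟨?_, (abs_nonunits_iff _ _).2 (hb i)⟩⟩
    exact HeightOneSpectrum.valuation_le_one (P i) b
  · intro i j hij
    exact hPinj (eq_of_valuationSubring_le (P i) (P j) hij)
  · intro i z hz
    obtain ⟨x, hx⟩ := zm_valgrp _ (hval' i) hz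
    exact ⟨x, (abs_eq_one_iff _ _).2 hx⟩
  · intro i x hx
    rw [← map_pow, abs_le_iff, map_pow]
    exact zm_pow_div _ (hval' i) ((abs_lt_iff _ _).1 hx)
  · intro i
    rw [(hef i).2]
    have := liesOver_maximalIdeal G (P i)
    exact Nat.pos_of_ne_zero (Ideal.inertiaDeg'_ne_zero _ _)

end Fermat.Agent.S36R.Val
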